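/-
S31, leaf **[CYC-k]** (helper10).  Prefix `s31cy_`.

`s31cy_main` : the mod `p ^ k` cyclotomic character `χ : G_ℚ →* ZMod (p ^ k)`, `σ ζ = ζ ^ χ(σ)` for
a primitive `p ^ k`-th root of unity `ζ`; it factors through the finite level `ℚ(ζ)`, is trivial
on the inertia groups at `ℓ ≠ p` and `χ σ = ℓ` for every Frobenius element `σ` at `ℓ ≠ p`.
-/
import Mathlib
import Fermat.Prelude.Def_GaloisRep_Residual
import Fermat.Agent.S31.Cyc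

set_option autoImplicit false

noncomputable section

namespace Fermat.Agent.S31

section CharK

variable {m : ℕ} [NeZero m] {ζ : AlgebraicClosure ℚ} (hζ : IsPrimitiveRoot ζ m)

/-- The mod `m` cyclotomic character attached to a primitive `m`-th root of unity. -/
def s31cy_chi : (AlgebraicClosure ℚ ≃ₐ[ℚ] AlgebraicClosure ℚ) →* ZMod m :=
  (Units.coeHom (ZMod m)).comp (hζ.autToPow ℚ)

/-- If `σ ζ = ζ ^ a` then `χ σ = a`. -/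
theorem s31cy_chi_eq (σ : AlgebraicClosure ℚ ≃ₐ[ℚ] AlgebraicClosure ℚ) (a : ℕ)
    (h : σ ζ = ζ ^ a) : s31cy_chi hζ σ = (a : ZMod m) := by
  have hm : 0 < m := Nat.pos_of_ne_zero (NeZero.ne m)
  have h1 : s31cy_chi hζ σ = ((hζ.autToPow ℚ σ : (ZMod m)ˣ) : ZMod m) := rfl
  have h2 : ζ ^ ((hζ.autToPow ℚ σ : (ZMod m)ˣ) : ZMod m).val = ζ ^ a := by
    rw [hζ.autToPow_spec ℚ σ, h]
  have h3 : ∀ i : ℕ, ζ ^ (i % m) = ζ ^ i := by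
    intro i
    conv_rhs => rw [← Nat.div_add_mod i m, pow_add, pow_mul, hζ.pow_eq_one, one_pow, one_mul]
  have h4 : ((hζ.autToPow ℚ σ : (ZMod m)ˣ) : ZMod m).val % m = a % m :=
    hζ.pow_inj (Nat.mod_lt _ hm) (Nat.mod_lt _ hm) (by rw [h3, h3, h2])
  rw [h1, ← ZMod.natCast_zmod_val ((hζ.autToPow ℚ σ : (ZMod m)ˣ) : ZMod m)]
  exact (ZMod.natCast_eq_natCast_iff _ _ _).2 h4

/-- `σ ζ = ζ ^ (χ σ).val`. -/
theorem s31cy_chi_spec (σ : AlgebraicClosure ℚ ≃ₐ[ℚ] AlgebraicClosure ℚ) :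
    σ ζ = ζ ^ (s31cy_chi hζ σ).val :=
  (hζ.autToPow_spec ℚ σ).symm

/-- `χ` factors through the finite level `ℚ(ζ)`. -/
theorem s31cy_chi_finiteLevel : GaloisFactorsThroughFiniteLevel (s31cy_chi hζ) := by
  have hm : 0 < m := Nat.pos_of_ne_zero (NeZero.ne m)
  refine ⟨IntermediateField.adjoin ℚ {ζ}, ?_, fun σ hσ => ?_⟩
  · exact IntermediateField.adjoin.finiteDimensional
      ((hζ.isIntegral hm).tower_top (R := ℤ) (A := ℚ)).isAlgebraic.isIntegral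
  · have h1 : σ ζ = ζ ^ 1 := by
      rw [pow_one]
      exact hσ ζ (IntermediateField.mem_adjoin_simple_self ℚ ζ)
    have h2 := s31cy_chi_eq hζ σ 1 h1
    simpa using h2

/-- `χ` is trivial on the inertia groups at `ℓ ∤ m`. -/
theorem s31cy_chi_inertia (ℓ : ℕ) (hℓ : ℓ.Prime) (hm : ¬ ℓ ∣ m)
    (A : ValuationSubring (AlgebraicClosure ℚ)) (hA : A.LiesOverPrime ℓ)
    (σ : AlgebraicClosure ℚ ≃ₐ[ℚ] AlgebraicClosure ℚ) (hσ : σ ∈ A.inertiaSubgroupIn ℚ) :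
    s31cy_chi hζ σ = 1 := by
  have h1 : σ ζ = ζ ^ 1 := by
    rw [pow_one]
    exact s31cy_inertia hℓ hm A hA σ hσ ζ hζ.pow_eq_one
  have h2 := s31cy_chi_eq hζ σ 1 h1
  simpa using h2

/-- `χ σ = ℓ` for a Frobenius element `σ` at `ℓ ∤ m`. -/
theorem s31cy_chi_frob (ℓ : ℕ) (hℓ : ℓ.Prime) (hm : ¬ ℓ ∣ m)
    (A : ValuationSubring (AlgebraicClosure ℚ)) (hA : A.LiesOverPrime ℓ)
    (σ : AlgebraicClosure ℚ ≃ₐ[ℚ] AlgebraicClosure ℚ) (hσ : A.IsFrobeniusAt σ ℓ) :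
    s31cy_chi hζ σ = (ℓ : ZMod m) :=
  s31cy_chi_eq hζ σ ℓ (s31cy_frob hℓ hm A hA σ hσ ζ hζ.pow_eq_one)

end CharK

/-- **[CYC-k]** the mod `p ^ k` cyclotomic character. -/
theorem s31cy_main (p : ℕ) (hp : p.Prime) (k : ℕ) :
    ∃ χ : (AlgebraicClosure ℚ ≃ₐ[ℚ] AlgebraicClosure ℚ) →* ZMod (p ^ k),
      GaloisFactorsThroughFiniteLevel χ ∧
      (∀ ℓ : ℕ, ℓ.Prime → ℓ ≠ p →
        ∀ A : ValuationSubring (AlgebraicClosure ℚ), A.LiesOverPrime ℓ →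
          ∀ σ ∈ A.inertiaSubgroupIn ℚ, χ σ = 1) ∧
      (∀ ℓ : ℕ, ℓ.Prime → ℓ ≠ p →
        ∀ A : ValuationSubring (AlgebraicClosure ℚ), A.LiesOverPrime ℓ →
          ∀ σ : AlgebraicClosure ℚ ≃ₐ[ℚ] AlgebraicClosure ℚ, A.IsFrobeniusAt σ ℓ →
            χ σ = (ℓ : ZMod (p ^ k))) := by
  have : NeZero (p ^ k) := ⟨(pow_pos hp.pos k).ne'⟩
  obtain ⟨ζ, hζ⟩ := HasEnoughRootsOfUnity.exists_primitiveRoot (AlgebraicClosure ℚ) (p ^ k)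
  have hnd : ∀ ℓ : ℕ, ℓ.Prime → ℓ ≠ p → ¬ ℓ ∣ p ^ k := fun ℓ hℓ hne hdvd =>
    hne ((Nat.prime_dvd_prime_iff_eq hℓ hp).1 (hℓ.dvd_of_dvd_pow hdvd))
  exact ⟨s31cy_chi hζ, s31cy_chi_finiteLevel hζ,
    fun ℓ hℓ hne A hA σ hσ => s31cy_chi_inertia hζ ℓ hℓ (hnd ℓ hℓ hne) A hA σ hσ,
    fun ℓ hℓ hne A hA σ hσ => s31cy_chi_frob hζ ℓ hℓ (hnd ℓ hℓ hne) A hA σ hσ⟩

end Fermat.Agent.S31
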