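/-
S31 (architect: helper9).  Prefix `s31_`.  Definitions, `Prop`s and the top composition.

TARGET (S31): in a Hecke–Galois datum `H` of level `N` away from `S` (`p ∈ S`, the primes of `N` in
`S`), the representation `H.ρ : G_ℚ → GL₂(T)` is unramified at every prime `q ∉ S`.

ROUTE.  `H` is an ABSTRACT datum: all we know about `ρ` are the characteristic polynomials
`X² - π(T_ℓ) X + ℓ` of ALL Frobenius lifts at the primes `ℓ ∉ S`, adic continuity, and the absolute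
irreducibility of the residual representation.  (A purely local argument at `q` is impossible:
a ramified quadratic twist has the same Frobenius polynomials when `π(T_q) = 0`.)

  S31  ⇐  [KER] + [TR]                                            (this file: `s31_goal_of`)
  [KER]   (pure algebra) for a residually absolutely irreducible `ρ` over a local ring:
          `tr ρ(g h) = tr ρ(h)` for all `h`  ⟹  `ρ(g) = 1`      (Burnside + Nakayama + trace form);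
  [TR]    `tr ρ(τ h) ≡ tr ρ(h)` modulo `𝔪_T ^ n` for all `n`, `τ` in an inertia group at `q ∉ S`.
  [TR]  ⇐  [FD] (`s29_FDStatement`, ON MAIN) + [FAITH] + the Eichler–Shimura relation on `J₀(N)[p^k]`
          (`s29q_frob`, `s29q_inertia`, `s29q_hecke_smul`, ON MAIN) + finite levels (`s29fl_finset`, ON
          MAIN) + the cyclotomic character modulo `p^k` + the Lucas sequences.
          Proof: fix `n`, `k := n + e`, a finite level `L` trivialising `ρ mod 𝔪^n`, `μ_{p^k}` and the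
          finite set `X ⊆ J[p^k]` of [FAITH].  [FD] for `τ h` and for `h`: Frobenius lifts `σ₁` at `ℓ₁`,
          `σ₂` at `ℓ₂` (`ℓᵢ ∉ S ∪ {q}`) with `σ₁ ^ m₁ = τ h`, `σ₂ ^ m₂ = h` on `L`.  Then
          `tr ρ(τ h) ≡ V_{m₁}(π T_{ℓ₁}, ℓ₁)`, `tr ρ(h) ≡ V_{m₂}(π T_{ℓ₂}, ℓ₂)` (`V_m(t, d)` the Lucas
          sequence `x^m + y^m`, `x + y = t`, `x y = d`), while on `X`:
          `V_{m₁}(T_{ℓ₁}, ℓ₁) = σ₁^{m₁} + ℓ₁^{m₁} σ₁^{-m₁} = h + χ(h) h⁻¹ = V_{m₂}(T_{ℓ₂}, ℓ₂)`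
          (`τ` acts trivially on `J[p^k]` and on `μ_{p^k}`), so [FAITH] gives
          `V_{m₁}(T_{ℓ₁}, ℓ₁) - V_{m₂}(T_{ℓ₂}, ℓ₂) ∈ p^n 𝕋`, and `π(p) ∈ 𝔪_T`.
  [FAITH] the Hecke algebra acts faithfully on the torsion of `J₀(N)`, with bounded denominators:
          ⇐ [KUM] (`s29k_Statement` at `n = p^k`) + [LAT-PER] + S21 + [LAT-FREE] + S22.
-/
import Mathlib
import Fermat.Prelude.Def_CuspForm_HeckeGaloisRepDatum
import Fermat.Prelude.Def_ModularCurve_HeckeModule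

set_option autoImplicit false

open Polynomial ModularCurve CuspForm

noncomputable section

namespace Fermat.Agent.S31

/-- **[KER]** the kernel of a residually absolutely irreducible representation over a local ring
is determined by its trace. -/
def s31_KerStatement : Prop :=
  ∀ (A : Type) [CommRing A] [IsLocalRing A] (ρ : GaloisRepAdic A),
    ρ.residual.IsAbsolutelyIrreducible →
    ∀ g : AlgebraicClosure ℚ ≃ₐ[ℚ] AlgebraicClosure ℚ,
      (∀ h : AlgebraicClosure ℚ ≃ₐ[ℚ] AlgebraicClosure ℚ,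
        LinearMap.trace A ρ.V (ρ.ρ (g * h)) = LinearMap.trace A ρ.V (ρ.ρ h)) →
      ρ.ρ g = 1

/-- **[TR]** the trace of a Hecke–Galois datum is invariant, modulo every power of the maximal
ideal, under the inertia groups at the primes `q ∉ S`. -/
def s31_TraceStatement : Prop :=
  ∀ (p N : ℕ) [NeZero N] (S : Finset ℕ)
    (𝒪 : Type) [CommRing 𝒪] [IsDomain 𝒪] [IsDiscreteValuationRing 𝒪]
    [IsAdicComplete (IsLocalRing.maximalIdeal 𝒪) 𝒪]
    (θ : CuspForm.heckeAlgebra N 2 (↑S : Set ℕ) →+* IsLocalRing.ResidueField 𝒪)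
    (T : Type) [CommRing T] [IsLocalRing T] [IsNoetherianRing T]
    [IsAdicComplete (IsLocalRing.maximalIdeal T) T] [Algebra 𝒪 T] [IsLocalHom (algebraMap 𝒪 T)]
    [Module.Finite 𝒪 T] [Module.Free 𝒪 T],
    p.Prime → (p : 𝒪) ∈ IsLocalRing.maximalIdeal 𝒪 → p ∈ S →
    (∀ q : ℕ, q.Prime → q ∣ N → q ∈ S) →
    ∀ (H : CuspForm.HeckeGaloisRepDatum N (↑S : Set ℕ) 𝒪 θ T) (q : ℕ), q.Prime → q ∉ S →
      ∀ P : ValuationSubring (AlgebraicClosure ℚ), P.LiesOverPrime q →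
        ∀ τ ∈ P.inertiaSubgroupIn ℚ, ∀ (h : AlgebraicClosure ℚ ≃ₐ[ℚ] AlgebraicClosure ℚ) (n : ℕ),
          LinearMap.trace T H.ρ.V (H.ρ.ρ (τ * h)) - LinearMap.trace T H.ρ.V (H.ρ.ρ h) ∈
            IsLocalRing.maximalIdeal T ^ n

/-- **[FAITH]** the Hecke algebra acts faithfully on the `p`-power torsion of `J₀(N)(Q̄)`, with
bounded denominators: there is `e` such that for every `k` a FINITE set `X` of `p^k`-torsion points
detects divisibility by `p^(k - e)` of differences `P₁(T_{ℓ₁}) - P₂(T_{ℓ₂})`. -/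
def s31_FaithStatement : Prop :=
  ∀ (N : ℕ) [NeZero N] (S : Finset ℕ) (p : ℕ), p.Prime → p ∈ S →
    (∀ q : ℕ, q.Prime → q ∣ N → q ∈ S) →
    ∃ e : ℕ, ∀ k : ℕ, ∃ X : Finset (JZero N), (∀ x ∈ X, (p ^ k) • x = 0) ∧
      ∀ (ℓ₁ ℓ₂ : ℕ) (h₁ : ℓ₁.Prime) (h₂ : ℓ₂.Prime) (h₁N : ¬ ℓ₁ ∣ N) (h₂N : ¬ ℓ₂ ∣ N)
        (h₁S : ℓ₁ ∉ S) (h₂S : ℓ₂ ∉ S) (P₁ P₂ : ℤ[X]),
        (∀ x ∈ X, Polynomial.aeval (heckeOperatorBar N ⟨ℓ₁, h₁⟩) P₁ x =
          Polynomial.aeval (heckeOperatorBar N ⟨ℓ₂, h₂⟩) P₂ x) →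
        ∃ t : CuspForm.heckeAlgebra N 2 (↑S : Set ℕ),
          Polynomial.aeval (CuspForm.heckeAlgebra.T (k := 2) (S := (↑S : Set ℕ)) h₁ h₁N h₁S) P₁ -
            Polynomial.aeval (CuspForm.heckeAlgebra.T (k := 2) (S := (↑S : Set ℕ)) h₂ h₂N h₂S) P₂ =
              ((p : ℤ) ^ (k - e)) • t

/-- The statement S31, verbatim. -/
def s31_Goal : Prop :=
  ∀ {p : ℕ} {N : ℕ} [NeZero N] {S : Finset ℕ}
    {𝒪 : Type} [CommRing 𝒪] [IsDomain 𝒪] [IsDiscreteValuationRing 𝒪]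
    [IsAdicComplete (IsLocalRing.maximalIdeal 𝒪) 𝒪]
    {θ : CuspForm.heckeAlgebra N 2 (↑S : Set ℕ) →+* IsLocalRing.ResidueField 𝒪}
    {T : Type} [CommRing T] [IsLocalRing T] [IsNoetherianRing T]
    [IsAdicComplete (IsLocalRing.maximalIdeal T) T] [Algebra 𝒪 T] [IsLocalHom (algebraMap 𝒪 T)]
    [Module.Finite 𝒪 T] [Module.Free 𝒪 T]
    (_ : p.Prime) (_ : (p : 𝒪) ∈ IsLocalRing.maximalIdeal 𝒪) (_ : p ∈ S)
    (_ : ∀ q : ℕ, q.Prime → q ∣ N → q ∈ S)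
    (H : CuspForm.HeckeGaloisRepDatum N (↑S : Set ℕ) 𝒪 θ T)
    (q : ℕ) (_ : q.Prime) (_ : q ∉ S),
    H.ρ.IsUnramifiedAt q

/-- **The top composition**: S31 from [KER] and [TR] (Krull's intersection theorem). -/
theorem s31_goal_of (hKer : s31_KerStatement) (hTr : s31_TraceStatement) : s31_Goal := by
  intro p N _ S 𝒪 _ _ _ _ θ T _ _ _ _ _ _ _ _ hp hp𝒪 hpS hNS H q hq hqS P hP τ hτ
  refine hKer T H.ρ H.residual_absIrr τ fun h => ?_
  have hmem : ∀ n : ℕ, LinearMap.trace T H.ρ.V (H.ρ.ρ (τ * h)) -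
      LinearMap.trace T H.ρ.V (H.ρ.ρ h) ∈ IsLocalRing.maximalIdeal T ^ n :=
    fun n => hTr p N S 𝒪 θ T hp hp𝒪 hpS hNS H q hq hqS P hP τ hτ h n
  have hbot : (⨅ n : ℕ, IsLocalRing.maximalIdeal T ^ n) = ⊥ :=
    Ideal.iInf_pow_eq_bot_of_isLocalRing _ (IsLocalRing.maximalIdeal.isMaximal T).ne_top
  have h0 : LinearMap.trace T H.ρ.V (H.ρ.ρ (τ * h)) -
      LinearMap.trace T H.ρ.V (H.ρ.ρ h) ∈ (⊥ : Ideal T) := by
    rw [← hbot]
    exact (Ideal.mem_iInf).2 hmem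
  exact sub_eq_zero.mp ((Ideal.mem_bot).1 h0)

end Fermat.Agent.S31
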