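/-
S31 [FAITH], the saturation core (helper7).  Prefix `s31sat_`.

(SAT-0)  For a subgroup `A` of a finitely generated `ℤ`-module `E` and a prime `p` there is `c₀`
         such that `A ∩ p^(n + c₀) E ⊆ p^n A` for all `n`  (Artin–Rees for `ℤ`-modules).
-/
import Mathlib

set_option autoImplicit false

namespace Fermat.Agent.S31

/-- The saturation of a submodule of a finitely generated `ℤ`-module has finite exponent. -/
theorem s31sat_exists_mul {E : Type*} [AddCommGroup E] [Module.Finite ℤ E] (A : Submodule ℤ E) :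
    ∃ M : ℤ, M ≠ 0 ∧ ∀ e : E, (∃ m : ℤ, m ≠ 0 ∧ m • e ∈ A) → M • e ∈ A := by
  classical
  -- the saturation
  let Sat : Submodule ℤ E :=
    { carrier := {e | ∃ m : ℤ, m ≠ 0 ∧ m • e ∈ A}
      zero_mem' := ⟨1, one_ne_zero, by simp⟩
      add_mem' := by
        rintro a b ⟨m, hm, ha⟩ ⟨m', hm', hb⟩
        refine ⟨m * m', mul_ne_zero hm hm', ?_⟩
        rw [smul_add]
        refine A.add_mem ?_ ?_
        · rw [mul_comm, mul_smul]
          exact A.smul_mem _ ha
        · rw [mul_smul]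
          exact A.smul_mem _ hb
      smul_mem' := by
        rintro c a ⟨m, hm, ha⟩
        refine ⟨m, hm, ?_⟩
        rw [smul_comm]
        exact A.smul_mem _ ha }
  have hNoeth : IsNoetherian ℤ E := isNoetherian_of_isNoetherianRing_of_finite ℤ E
  obtain ⟨s, hs⟩ : Sat.FG := IsNoetherian.noetherian Sat
  have hmem : ∀ x ∈ s, ∃ m : ℤ, m ≠ 0 ∧ m • x ∈ A := fun x hx => by
    have : x ∈ Sat := by
      rw [← hs]
      exact Submodule.subset_span hx
    exact this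
  choose! m hm0 hmA using hmem
  refine ⟨∏ x ∈ s, m x, Finset.prod_ne_zero_iff.mpr hm0, fun e he => ?_⟩
  have heS : e ∈ Submodule.span ℤ (s : Set E) := by
    rw [hs]
    exact he
  refine Submodule.span_induction (p := fun e _ => (∏ x ∈ s, m x) • e ∈ A) ?_ ?_ ?_ ?_ heS
  · intro x hx
    have hx' : x ∈ s := hx
    rw [← Finset.mul_prod_erase s m hx', mul_comm, mul_smul]
    exact A.smul_mem _ (hmA x hx')
  · simp
  · intro a b _ _ ha hb
    rw [smul_add]
    exact A.add_mem ha hb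
  · intro c a _ ha
    rw [smul_comm]
    exact A.smul_mem _ ha

/-- **(SAT-0)** Artin–Rees for `ℤ`-modules: for a submodule `A` of a finitely generated
`ℤ`-module `E` and a prime `p` there is `c₀` with `A ∩ p^(n + c₀) E ⊆ p^n A` for all `n`. -/
theorem s31sat_artinRees {E : Type*} [AddCommGroup E] [Module.Finite ℤ E] (A : Submodule ℤ E)
    {p : ℕ} (hp : p.Prime) :
    ∃ c₀ : ℕ, ∀ (n : ℕ) (a : E), a ∈ A → (∃ e : E, a = ((p : ℤ) ^ (n + c₀)) • e) →
      ∃ a' ∈ A, a = ((p : ℤ) ^ n) • a' := by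
  obtain ⟨M, hM0, hM⟩ := s31sat_exists_mul A
  -- `M = ± p^c₀ u`, `p ∤ u`
  obtain ⟨c₀, u, hu, hMu⟩ := Nat.exists_eq_pow_mul_and_not_dvd
    (Int.natAbs_ne_zero.mpr hM0) p hp.ne_one
  have hM' : ∀ e : E, (∃ m : ℤ, m ≠ 0 ∧ m • e ∈ A) → (((p : ℤ) ^ c₀ * (u : ℤ))) • e ∈ A := by
    intro e he
    have h1 := hM e he
    have h2 : ((M.natAbs : ℤ)) • e ∈ A := by
      rcases Int.natAbs_eq M with h | h
      · rw [← h]; exact h1
      · have : ((M.natAbs : ℤ)) = -M := by omega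
        rw [this, neg_smul]
        exact A.neg_mem h1
    rw [hMu] at h2
    push_cast at h2
    exact h2
  refine ⟨c₀, fun n a ha ⟨e, he⟩ => ?_⟩
  have hp0 : (p : ℤ) ≠ 0 := by exact_mod_cast hp.ne_zero
  have hsat : ((p : ℤ) ^ c₀ * (u : ℤ)) • e ∈ A :=
    hM' e ⟨(p : ℤ) ^ (n + c₀), pow_ne_zero _ hp0, he ▸ ha⟩
  -- `u • a = p^n • (p^c₀ u • e)`
  have hua : (u : ℤ) • a = ((p : ℤ) ^ n) • (((p : ℤ) ^ c₀ * (u : ℤ)) • e) := by
    rw [he, smul_smul, smul_smul]
    congr 1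
    ring
  -- Bezout
  have hcop : IsCoprime (u : ℤ) ((p : ℤ) ^ n) := by
    apply IsCoprime.pow_right
    rw [Int.isCoprime_iff_gcd_eq_one]
    have : Nat.Coprime u p := (Nat.Coprime.symm ((Nat.Prime.coprime_iff_not_dvd hp).mpr hu))
    simpa [Int.gcd, Int.natAbs_natCast] using this
  obtain ⟨α, β, hαβ⟩ := hcop
  refine ⟨α • (((p : ℤ) ^ c₀ * (u : ℤ)) • e) + β • a, ?_, ?_⟩
  · exact A.add_mem (A.smul_mem _ hsat) (A.smul_mem _ ha)
  · have h1 : a = (α * (u : ℤ) + β * (p : ℤ) ^ n) • a := by rw [hαβ, one_smul]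
    rw [smul_add, smul_comm ((p : ℤ) ^ n) α, ← hua, smul_smul, smul_smul, ← add_smul]
    have e2 : (p : ℤ) ^ n * β = β * (p : ℤ) ^ n := mul_comm _ _
    rw [e2]
    exact h1

/-- Finiteness over `ℤ` does not depend on the `ℤ`-module instance. -/
theorem s31sat_finite_int {E : Type*} [AddCommGroup E] (inst : Module ℤ E)
    (h : @Module.Finite ℤ E _ _ inst) : @Module.Finite ℤ E _ _ (AddCommGroup.toIntModule E) := by
  have : inst = AddCommGroup.toIntModule E := Subsingleton.elim _ _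
  subst this
  exact h

/-- (SAT-0) for additive subgroups, with an arbitrary `ℤ`-module instance on `E`. -/
theorem s31sat_artinRees_addSubgroup {E : Type*} [AddCommGroup E] [inst : Module ℤ E]
    [hfin : Module.Finite ℤ E] (A : AddSubgroup E) {p : ℕ} (hp : p.Prime) :
    ∃ c₀ : ℕ, ∀ (n : ℕ) (a : E), a ∈ A → (∃ e : E, a = ((p : ℤ) ^ (n + c₀)) • e) →
      ∃ a' ∈ A, a = ((p : ℤ) ^ n) • a' := by
  have := s31sat_finite_int inst hfin
  obtain ⟨c₀, h⟩ := s31sat_artinRees (AddSubgroup.toIntSubmodule A) hp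
  refine ⟨c₀, fun n a ha ⟨e, he⟩ => ?_⟩
  obtain ⟨a', ha', h'⟩ := h n a ha ⟨e, by rw [he]⟩
  refine ⟨a', ha', ?_⟩
  rw [h']

end Fermat.Agent.S31
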