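/-
S31 [FAITH], the ring of compatible pairs (helper7).  Prefix `s31sat_`.

A pair `(x, z)`, `x` an endomorphism of `S₂(Γ₀(N))`, `z` an endomorphism of the lattice
`Λ = parabolicHoms ℤ Γ₀(N) ℤ`, is COMPATIBLE if the period map intertwines `x` with the `ℂ`-linear
extension of `z`.  The compatible pairs form a subring of the product, the second projection is
injective on it (Eichler–Shimura: periods are injective), and it contains the pairs
`(T_ℓ, T_ℓ^Λ)`.  Together with (SAT-0): an element of the Hecke algebra acting on `Λ` by an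
endomorphism divisible by `p^(n + c₀)` is divisible by `p^n` in the Hecke algebra.
-/
import Mathlib
import Fermat.Agent.S31.Sat
import Fermat.Agent.S29.LatPer
import Fermat.Agent.S29.LatHom
import Fermat.Agent.S29.LatFreeMain

set_option autoImplicit false
set_option linter.unusedSectionVars false
set_option linter.style.haveILetI false

noncomputable section

namespace Fermat.Agent.S31

open CongruenceSubgroup ModularCurve ModularCurve.Period Fermat.Agent.S29
open scoped MatrixGroups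

variable (N : ℕ) [NeZero N]

/-- `(x, z)` is compatible: for every cusp form `f` and every representation of its period
homomorphism as a complex combination of elements `λᵢ` of the lattice, the period homomorphism of
`x f` is the same combination of the `z λᵢ`. -/
def s31sat_Compat (x : Module.End ℂ (CuspForm (Gamma0 N) 2))
    (z : Module.End ℤ (parabolicHoms ℤ (Gamma0 N) ℤ)) : Prop :=
  ∀ (f : CuspForm (Gamma0 N) 2) (n : ℕ) (lam : Fin n → parabolicHoms ℤ (Gamma0 N) ℤ)
    (c : Fin n → ℂ),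
    (∀ γ : Gamma0 N, periodMap N f (Additive.ofMul γ) =
      ∑ i, c i * (((lam i : Additive (Gamma0 N) →+ ℤ) (Additive.ofMul γ) : ℤ) : ℂ)) →
    ∀ γ : Gamma0 N, periodMap N (x f) (Additive.ofMul γ) =
      ∑ i, c i * ((((z (lam i) : parabolicHoms ℤ (Gamma0 N) ℤ) :
        Additive (Gamma0 N) →+ ℤ) (Additive.ofMul γ) : ℤ) : ℂ)

variable {N}

theorem s31sat_periodMap_zero : periodMap N (0 : CuspForm (Gamma0 N) 2) = 0 := by
  have := s29lp_smul (N := N) 0 (0 : CuspForm (Gamma0 N) 2)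
  rw [zero_smul, zero_smul] at this
  exact this

theorem s31sat_compat_one : s31sat_Compat N 1 1 := fun _ _ _ _ h γ => h γ

theorem s31sat_compat_zero : s31sat_Compat N 0 0 := by
  intro f n lam c _ γ
  simp [s31sat_periodMap_zero]

theorem s31sat_compat_mul {x x' : Module.End ℂ (CuspForm (Gamma0 N) 2)}
    {z z' : Module.End ℤ (parabolicHoms ℤ (Gamma0 N) ℤ)}
    (h : s31sat_Compat N x z) (h' : s31sat_Compat N x' z') :
    s31sat_Compat N (x * x') (z * z') := by
  intro f n lam c hf γ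
  exact h (x' f) n (fun i => z' (lam i)) c (h' f n lam c hf) γ

theorem s31sat_compat_add {x x' : Module.End ℂ (CuspForm (Gamma0 N) 2)}
    {z z' : Module.End ℤ (parabolicHoms ℤ (Gamma0 N) ℤ)}
    (h : s31sat_Compat N x z) (h' : s31sat_Compat N x' z') :
    s31sat_Compat N (x + x') (z + z') := by
  intro f n lam c hf γ
  rw [LinearMap.add_apply, s29lp_add, AddMonoidHom.add_apply, h f n lam c hf γ,
    h' f n lam c hf γ, ← Finset.sum_add_distrib]
  refine Finset.sum_congr rfl fun i _ => ?_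
  rw [LinearMap.add_apply, Submodule.coe_add, AddMonoidHom.add_apply]
  push_cast
  ring

theorem s31sat_compat_neg {x : Module.End ℂ (CuspForm (Gamma0 N) 2)}
    {z : Module.End ℤ (parabolicHoms ℤ (Gamma0 N) ℤ)}
    (h : s31sat_Compat N x z) : s31sat_Compat N (-x) (-z) := by
  intro f n lam c hf γ
  have e : (-x) f = (-1 : ℂ) • x f := by simp
  rw [e, s29lp_smul, AddMonoidHom.smul_apply, h f n lam c hf γ, smul_eq_mul, Finset.mul_sum]
  refine Finset.sum_congr rfl fun i _ => ?_
  rw [LinearMap.neg_apply, Submodule.coe_neg, AddMonoidHom.neg_apply]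
  push_cast
  ring

/-- The pair `(T_ℓ, T_ℓ^Λ)` is compatible (Hecke equivariance of the period map). -/
theorem s31sat_compat_T (l : ℕ) [Fact l.Prime] (hl : l.Prime) (hlN : ¬ l ∣ N) :
    s31sat_Compat N (CuspForm.heckeTLin 2 hl hlN) (s29lat_T N l hlN) := by
  intro f n lam c hf γ
  have h1 := s29lp_main N l hlN f γ
  rw [h1, s29lat_heckeFun_def]
  simp only [hf, s29lat_T_apply, s29lat_heckeFun_def]
  rw [Finset.sum_comm]
  refine Finset.sum_congr rfl fun i _ => ?_
  push_cast
  rw [Finset.mul_sum]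

/-- Injectivity of the second projection on compatible pairs. -/
theorem s31sat_compat_inj {x : Module.End ℂ (CuspForm (Gamma0 N) 2)}
    (h : s31sat_Compat N x 0) : x = 0 := by
  obtain ⟨_, _, _, h4⟩ := s29lf_main N
  refine LinearMap.ext fun f => ?_
  obtain ⟨n, lam, c, hrep⟩ := h4 (periodMap N f) (s29lp_mem f)
  have h0 : periodMap N (x f) = 0 := by
    refine AddMonoidHom.ext fun γ => ?_
    have := h f n lam c hrep (Additive.toMul γ)
    simpa using this
  by_contra hne
  exact s29lp_ne_zero (N := N) (g := x f) hne h0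

/-- The compatible pairs, as a subalgebra of the product. -/
def s31sat_C (N : ℕ) [NeZero N] :
    Subalgebra ℤ (Module.End ℂ (CuspForm (Gamma0 N) 2) ×
      Module.End ℤ (parabolicHoms ℤ (Gamma0 N) ℤ)) where
  carrier := {xz | s31sat_Compat N xz.1 xz.2}
  mul_mem' := fun {a b} ha hb => s31sat_compat_mul ha hb
  one_mem' := s31sat_compat_one
  add_mem' := fun {a b} ha hb => s31sat_compat_add ha hb
  zero_mem' := s31sat_compat_zero
  algebraMap_mem' := fun r => by
    induction r using Int.induction_on with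
    | zero => simpa using s31sat_compat_zero (N := N)
    | succ i ih =>
      have : (algebraMap ℤ (Module.End ℂ (CuspForm (Gamma0 N) 2) ×
          Module.End ℤ (parabolicHoms ℤ (Gamma0 N) ℤ))) ((i : ℤ) + 1)
          = (algebraMap ℤ _) (i : ℤ) + 1 := by rw [map_add, map_one]
      rw [this]
      exact s31sat_compat_add ih s31sat_compat_one
    | pred i ih =>
      have : (algebraMap ℤ (Module.End ℂ (CuspForm (Gamma0 N) 2) ×
          Module.End ℤ (parabolicHoms ℤ (Gamma0 N) ℤ))) (-(i : ℤ) - 1)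
          = (algebraMap ℤ _) (-(i : ℤ)) + -1 := by rw [map_sub, map_one, sub_eq_add_neg]
      rw [this]
      exact s31sat_compat_add ih (s31sat_compat_neg s31sat_compat_one)

theorem s31sat_mem_C {xz : Module.End ℂ (CuspForm (Gamma0 N) 2) ×
    Module.End ℤ (parabolicHoms ℤ (Gamma0 N) ℤ)} :
    xz ∈ s31sat_C N ↔ s31sat_Compat N xz.1 xz.2 := Iff.rfl

/-- The generating pairs `(T_ℓ, T_ℓ^Λ)`, `ℓ ∤ N` prime, `ℓ ∉ S`. -/
def s31sat_gens (N : ℕ) [NeZero N] (S : Set ℕ) :
    Set (Module.End ℂ (CuspForm (Gamma0 N) 2) ×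
      Module.End ℤ (parabolicHoms ℤ (Gamma0 N) ℤ)) :=
  {xz | ∃ (l : ℕ) (hl : l.Prime) (hlN : ¬ l ∣ N), l ∉ S ∧
    xz = (CuspForm.heckeTLin 2 hl hlN,
      (haveI : Fact l.Prime := ⟨hl⟩; s29lat_T N l hlN))}

/-- The algebra of pairs generated by the `(T_ℓ, T_ℓ^Λ)`. -/
def s31sat_A (N : ℕ) [NeZero N] (S : Set ℕ) :
    Subalgebra ℤ (Module.End ℂ (CuspForm (Gamma0 N) 2) ×
      Module.End ℤ (parabolicHoms ℤ (Gamma0 N) ℤ)) :=
  Algebra.adjoin ℤ (s31sat_gens N S)

theorem s31sat_A_le_C (S : Set ℕ) : s31sat_A N S ≤ s31sat_C N := by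
  refine Algebra.adjoin_le ?_
  rintro _ ⟨l, hl, hlN, _, rfl⟩
  haveI : Fact l.Prime := ⟨hl⟩
  exact s31sat_compat_T l hl hlN

theorem s31sat_gen_mem (S : Set ℕ) {l : ℕ} [Fact l.Prime] (hl : l.Prime) (hlN : ¬ l ∣ N)
    (hlS : l ∉ S) :
    (CuspForm.heckeTLin 2 hl hlN, s29lat_T N l hlN) ∈ s31sat_A N S :=
  Algebra.subset_adjoin ⟨l, hl, hlN, hlS, rfl⟩

/-- **(SAT-1)** the first component of an element of `s31sat_A` lies in the Hecke algebra. -/
theorem s31sat_fst_mem (S : Set ℕ) {xz : Module.End ℂ (CuspForm (Gamma0 N) 2) ×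
    Module.End ℤ (parabolicHoms ℤ (Gamma0 N) ℤ)} (h : xz ∈ s31sat_A N S) :
    xz.1 ∈ CuspForm.heckeAlgebra N 2 S := by
  induction h using Algebra.adjoin_induction with
  | mem x hx =>
    obtain ⟨l, hl, hlN, hlS, rfl⟩ := hx
    exact CuspForm.heckeTLin_mem_heckeAlgebra hl hlN hlS
  | algebraMap r => exact Subalgebra.algebraMap_mem _ r
  | add x y _ _ hx hy => exact Subalgebra.add_mem _ hx hy
  | mul x y _ _ hx hy => exact Subalgebra.mul_mem _ hx hy

/-- **(SAT-2)** an element of `s31sat_A` with vanishing second component vanishes. -/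
theorem s31sat_inj (S : Set ℕ) {x : Module.End ℂ (CuspForm (Gamma0 N) 2)}
    (h : (x, (0 : Module.End ℤ (parabolicHoms ℤ (Gamma0 N) ℤ))) ∈ s31sat_A N S) : x = 0 :=
  s31sat_compat_inj (s31sat_A_le_C S h)

/-- The second projections of the elements of `s31sat_A`, as an additive subgroup. -/
def s31sat_M (N : ℕ) [NeZero N] (S : Set ℕ) :
    AddSubgroup (Module.End ℤ (parabolicHoms ℤ (Gamma0 N) ℤ)) where
  carrier := {z | ∃ x, (x, z) ∈ s31sat_A N S}
  zero_mem' := ⟨0, (s31sat_A N S).zero_mem⟩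
  add_mem' := by
    rintro a b ⟨x, hx⟩ ⟨y, hy⟩
    exact ⟨x + y, (s31sat_A N S).add_mem hx hy⟩
  neg_mem' := by
    rintro a ⟨x, hx⟩
    exact ⟨-x, (s31sat_A N S).neg_mem hx⟩

/-- **(SAT-3)** there is `c₀` such that an element `x` of the Hecke algebra which acts on the
lattice `Λ` through an endomorphism `z` divisible by `p^(n + c₀)` is divisible by `p^n` in the
Hecke algebra. -/
theorem s31sat_finite_end (N : ℕ) [NeZero N] :
    Module.Finite ℤ (Module.End ℤ (parabolicHoms ℤ (Gamma0 N) ℤ)) := by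
  obtain ⟨hfin, hfree, _, _⟩ := s29lf_main N
  exact Module.Finite.linearMap ℤ ℤ _ _

theorem s31sat_main (S : Set ℕ) {p : ℕ} (hp : p.Prime) :
    ∃ c₀ : ℕ, ∀ (n : ℕ) (x : Module.End ℂ (CuspForm (Gamma0 N) 2))
      (z : Module.End ℤ (parabolicHoms ℤ (Gamma0 N) ℤ)), (x, z) ∈ s31sat_A N S →
      (∃ e : Module.End ℤ (parabolicHoms ℤ (Gamma0 N) ℤ), z = ((p : ℤ) ^ (n + c₀)) • e) →
      ∃ x' ∈ CuspForm.heckeAlgebra N 2 S, x = ((p : ℤ) ^ n) • x' := by
  have hE := s31sat_finite_end N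
  obtain ⟨c₀, h⟩ := s31sat_artinRees_addSubgroup (s31sat_M N S) hp
  refine ⟨c₀, fun n x z hxz ⟨e, he⟩ => ?_⟩
  obtain ⟨z', ⟨x', hx'⟩, hz'⟩ := h n z ⟨x, hxz⟩ ⟨e, he⟩
  refine ⟨x', s31sat_fst_mem S hx', ?_⟩
  have h1 : (x, z) - ((p : ℤ) ^ n) • (x', z') ∈ s31sat_A N S :=
    (s31sat_A N S).sub_mem hxz ((s31sat_A N S).smul_mem hx' _)
  have h2 : (x, z) - ((p : ℤ) ^ n) • (x', z')
      = (x - ((p : ℤ) ^ n) • x', (0 : Module.End ℤ (parabolicHoms ℤ (Gamma0 N) ℤ))) := by
    rw [Prod.smul_mk, Prod.mk_sub_mk, hz', sub_self]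
  rw [h2] at h1
  exact sub_eq_zero.mp (s31sat_inj S h1)

end Fermat.Agent.S31
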