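/-
S31 [FAITH] (helper7; architect: helper9).  Prefix `s31fa_`.

`s31fa_main : s29k_Statement → s31_FaithStatement` (VERBATIM `S31/Defs.lean`): the Hecke algebra
acts faithfully on the `p`-power torsion of `J₀(N)(Q̄)`, with bounded denominators.

`X := D_k (a finite generating set of Λ)`, `D_k : Λ → J₀(N)(Q̄)[p^k]` the Kummer map ([KUM] at
`n = p^k`); equivariance turns the hypothesis into `(P₁(T_{ℓ₁}^Λ) - P₂(T_{ℓ₂}^Λ)) Λ ⊆ p^k Λ`, and
the saturation theorem `s31sat_main` gives the divisibility in the Hecke algebra.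
-/
import Mathlib
import Fermat.Agent.S31.Defs
import Fermat.Agent.S31.SatPer
import Fermat.Agent.S29.KumDefs

set_option autoImplicit false
set_option linter.unusedSectionVars false
set_option linter.style.haveILetI false

noncomputable section

namespace Fermat.Agent.S31

open CongruenceSubgroup ModularCurve ModularCurve.Period Fermat.Agent.S29 Polynomial
open scoped MatrixGroups

variable {N : ℕ} [NeZero N]

/-- Multiplication by a non-zero integer is injective on the lattice. -/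
theorem s31fa_smul_inj {m : ℤ} (hm : m ≠ 0) {a b : parabolicHoms ℤ (Gamma0 N) ℤ}
    (h : m • a = m • b) : a = b := by
  apply Subtype.ext
  refine AddMonoidHom.ext fun γ => ?_
  have h1 := congrArg (fun t : parabolicHoms ℤ (Gamma0 N) ℤ =>
    (t : Additive (Gamma0 N) →+ ℤ) γ) h
  simp only [Submodule.coe_smul, AddMonoidHom.smul_apply, smul_eq_mul] at h1
  exact mul_left_cancel₀ hm h1

/-- Division of an endomorphism of the lattice by a non-zero integer. -/
theorem s31fa_div {m : ℤ} (hm : m ≠ 0) (z : Module.End ℤ (parabolicHoms ℤ (Gamma0 N) ℤ))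
    (h : ∀ ψ, ∃ ψ', z ψ = m • ψ') :
    ∃ e : Module.End ℤ (parabolicHoms ℤ (Gamma0 N) ℤ), z = m • e := by
  choose e he using h
  have hadd : ∀ a b, e (a + b) = e a + e b := by
    intro a b
    apply s31fa_smul_inj hm
    rw [← he, smul_add, ← he, ← he, map_add]
  refine ⟨(AddMonoidHom.mk' e hadd).toIntLinearMap, ?_⟩
  refine LinearMap.ext fun ψ => ?_
  rw [LinearMap.smul_apply]
  exact he ψ

/-- Equivariance of an additive map for powers. -/
theorem s31fa_equiv_pow {A B : Type*} [AddCommGroup A] [AddCommGroup B] (D : A →+ B)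
    (z : Module.End ℤ A) (t : Module.End ℤ B) (h : ∀ c, D (z c) = t (D c)) (j : ℕ) (c : A) :
    D ((z ^ j) c) = (t ^ j) (D c) := by
  induction j generalizing c with
  | zero => simp
  | succ j ih =>
    rw [pow_succ, pow_succ, Module.End.mul_apply, Module.End.mul_apply, ih, h]

/-- Equivariance of an additive map for polynomials. -/
theorem s31fa_equiv_aeval {A B : Type*} [AddCommGroup A] [AddCommGroup B] (D : A →+ B)
    (z : Module.End ℤ A) (t : Module.End ℤ B) (h : ∀ c, D (z c) = t (D c)) (P : ℤ[X]) (c : A) :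
    D (aeval z P c) = aeval t P (D c) := by
  induction P using Polynomial.induction_on' with
  | add p q hp hq =>
    rw [map_add, map_add, LinearMap.add_apply, LinearMap.add_apply, map_add, hp, hq]
  | monomial n a =>
    rw [aeval_monomial, aeval_monomial, Module.End.mul_apply, Module.End.mul_apply]
    simp only [eq_intCast, Module.End.intCast_apply, map_zsmul]
    rw [s31fa_equiv_pow D z t h]

/-- Evaluation of polynomials in a product of algebras. -/
theorem s31fa_aeval_prod {A B : Type*} [Ring A] [Ring B] [Algebra ℤ A] [Algebra ℤ B]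
    (a : A) (b : B) (P : ℤ[X]) : aeval ((a, b) : A × B) P = (aeval a P, aeval b P) := by
  refine Prod.ext ?_ ?_
  · exact (aeval_algHom_apply (AlgHom.fst ℤ A B) (a, b) P).symm
  · exact (aeval_algHom_apply (AlgHom.snd ℤ A B) (a, b) P).symm

/-- Polynomials in a generating pair lie in `s31sat_A`. -/
theorem s31fa_aeval_mem (S : Set ℕ) {l : ℕ} [Fact l.Prime] (hl : l.Prime) (hlN : ¬ l ∣ N)
    (hlS : l ∉ S) (P : ℤ[X]) :
    (aeval (CuspForm.heckeTLin 2 hl hlN) P, aeval (s29lat_T N l hlN) P) ∈ s31sat_A N S := by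
  have h := s31sat_gen_mem (N := N) S hl hlN hlS
  rw [← s31fa_aeval_prod]
  have h2 := aeval_algHom_apply (Subalgebra.val (s31sat_A N S)) ⟨_, h⟩ P
  rw [Subalgebra.val_apply] at h2
  rw [h2]
  exact Subtype.property _

/-- **[FAITH]**, verbatim (`S31/Defs.lean`), from the Kummer map [KUM]. -/
theorem s31fa_main : Fermat.Agent.S29.s29k_Statement → s31_FaithStatement := by
  intro hK N _ S p hp hpS hNS
  have hp0 : (p : ℤ) ≠ 0 := by exact_mod_cast hp.ne_zero
  obtain ⟨c₀, hc₀⟩ := s31sat_main (N := N) (↑S : Set ℕ) hp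
  refine ⟨c₀, fun k => ?_⟩
  obtain ⟨D, htors, hker, hequiv⟩ := hK N (p ^ k) (pow_pos hp.pos k)
  obtain ⟨hfin, _, _, _⟩ := s29lf_main N
  obtain ⟨s, hs⟩ := hfin.fg_top
  classical
  refine ⟨s.image D, ?_, ?_⟩
  · intro x hx
    obtain ⟨c, _, rfl⟩ := Finset.mem_image.mp hx
    exact htors c
  intro l₁ l₂ h₁ h₂ h₁N h₂N h₁S h₂S P₁ P₂ hX
  haveI : Fact l₁.Prime := ⟨h₁⟩
  haveI : Fact l₂.Prime := ⟨h₂⟩
  have hne : ∀ l : ℕ, l.Prime → l ∉ S → ¬ l ∣ p ^ k := by
    intro l hl hlS hdiv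
    have h1 : l ∣ p := hl.dvd_of_dvd_pow hdiv
    have h2 : l = p := (Nat.prime_dvd_prime_iff_eq hl hp).mp h1
    exact hlS (h2 ▸ hpS)
  have hD₁ : ∀ c, D (aeval (s29lat_T N l₁ h₁N) P₁ c)
      = aeval (heckeOperatorBar N ⟨l₁, h₁⟩) P₁ (D c) :=
    s31fa_equiv_aeval D _ _ (fun c => hequiv l₁ h₁N (hne l₁ h₁ h₁S) c) P₁
  have hD₂ : ∀ c, D (aeval (s29lat_T N l₂ h₂N) P₂ c)
      = aeval (heckeOperatorBar N ⟨l₂, h₂⟩) P₂ (D c) :=
    s31fa_equiv_aeval D _ _ (fun c => hequiv l₂ h₂N (hne l₂ h₂ h₂S) c) P₂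
  have hgen : ∀ c ∈ s, ∃ c', (aeval (s29lat_T N l₁ h₁N) P₁ - aeval (s29lat_T N l₂ h₂N) P₂) c
      = ((p : ℤ) ^ k) • c' := by
    intro c hc
    have h0 : D ((aeval (s29lat_T N l₁ h₁N) P₁ - aeval (s29lat_T N l₂ h₂N) P₂) c) = 0 := by
      rw [LinearMap.sub_apply, map_sub, hD₁, hD₂, hX (D c) (Finset.mem_image_of_mem D hc),
        sub_self]
    obtain ⟨c', hc'⟩ := hker _ h0
    refine ⟨c', ?_⟩
    rw [hc']
    rw [← Nat.cast_pow, natCast_zsmul]
  have hall : ∀ ψ, ∃ ψ', (aeval (s29lat_T N l₁ h₁N) P₁ - aeval (s29lat_T N l₂ h₂N) P₂) ψ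
      = ((p : ℤ) ^ k) • ψ' := by
    intro ψ
    have hψ : ψ ∈ Submodule.span ℤ (s : Set (parabolicHoms ℤ (Gamma0 N) ℤ)) := by
      rw [hs]
      trivial
    induction hψ using Submodule.span_induction with
    | mem x hx => exact hgen x hx
    | zero => exact ⟨0, by simp⟩
    | add a b _ _ ha hb =>
      obtain ⟨a', ha'⟩ := ha
      obtain ⟨b', hb'⟩ := hb
      exact ⟨a' + b', by rw [map_add, ha', hb', smul_add]⟩
    | smul r a _ ha =>
      obtain ⟨a', ha'⟩ := ha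
      exact ⟨r • a', by rw [map_smul, ha', smul_comm]⟩
  obtain ⟨e', he'⟩ := s31fa_div (pow_ne_zero k hp0) _ hall
  have hmem : (aeval (CuspForm.heckeTLin 2 h₁ h₁N) P₁ - aeval (CuspForm.heckeTLin 2 h₂ h₂N) P₂,
      aeval (s29lat_T N l₁ h₁N) P₁ - aeval (s29lat_T N l₂ h₂N) P₂) ∈ s31sat_A N (↑S : Set ℕ) := by
    have := (s31sat_A N (↑S : Set ℕ)).sub_mem (s31fa_aeval_mem (↑S : Set ℕ) h₁ h₁N h₁S P₁)
      (s31fa_aeval_mem (↑S : Set ℕ) h₂ h₂N h₂S P₂)
    rwa [Prod.mk_sub_mk] at this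
  have hcoe : ((aeval (CuspForm.heckeAlgebra.T (k := 2) (S := (↑S : Set ℕ)) h₁ h₁N h₁S) P₁ -
      aeval (CuspForm.heckeAlgebra.T (k := 2) (S := (↑S : Set ℕ)) h₂ h₂N h₂S) P₂ :
        CuspForm.heckeAlgebra N 2 (↑S : Set ℕ)) : Module.End ℂ (CuspForm (Gamma0 N) 2))
      = aeval (CuspForm.heckeTLin 2 h₁ h₁N) P₁ - aeval (CuspForm.heckeTLin 2 h₂ h₂N) P₂ := by
    have e₁ := aeval_algHom_apply (Subalgebra.val (CuspForm.heckeAlgebra N 2 (↑S : Set ℕ)))
      (CuspForm.heckeAlgebra.T (k := 2) (S := (↑S : Set ℕ)) h₁ h₁N h₁S) P₁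
    have e₂ := aeval_algHom_apply (Subalgebra.val (CuspForm.heckeAlgebra N 2 (↑S : Set ℕ)))
      (CuspForm.heckeAlgebra.T (k := 2) (S := (↑S : Set ℕ)) h₂ h₂N h₂S) P₂
    rw [Subalgebra.val_apply, Subalgebra.val_apply, CuspForm.heckeAlgebra.coe_T] at e₁ e₂
    rw [Subalgebra.coe_sub, e₁, e₂]
  by_cases hk : c₀ ≤ k
  · obtain ⟨x', hx', hxe⟩ := hc₀ (k - c₀) _ _ hmem
      ⟨e', by rw [Nat.sub_add_cancel hk]; exact he'⟩
    refine ⟨⟨x', hx'⟩, Subtype.ext ?_⟩
    rw [hcoe, hxe]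
    rfl
  · have hk0 : k - c₀ = 0 := by omega
    exact ⟨_, by rw [hk0, pow_zero, one_smul]⟩

end Fermat.Agent.S31
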