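import Mathlib
import Fermat.Prelude.Def_CuspForm_HeckeGaloisRepDatum

set_option autoImplicit false

/-!
# S31, [S31-CONT]: traces and adic continuity

Owner: helper3.  Prefix `s31fj_`.

* `s31fj_trace_mem`: the trace of an endomorphism of a finite free module with image in `I • V`
  lies in `I`.
* `s31fj_trace_congr`: for an adic Galois representation `ρ` over a local ring `T` and every `n`
  there is a finite level `L` such that `tr ρ(g) ≡ tr ρ(h)` modulo `𝔪 ^ n` as soon as `g` and `h`
  agree on `L`.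
-/

namespace Fermat.Agent.S31

/-- Coordinates of elements of `I • V` lie in `I`. -/
theorem s31fj_repr_mem {A : Type*} [CommRing A] {V : Type*} [AddCommGroup V] [Module A V]
    {ι : Type*} (b : Module.Basis ι A V) (I : Ideal A) {x : V}
    (hx : x ∈ I • (⊤ : Submodule A V)) (i : ι) : b.repr x i ∈ I := by
  refine Submodule.smul_induction_on (p := fun x => b.repr x i ∈ I) hx ?_ ?_
  · intro a ha v _
    rw [map_smul, Finsupp.smul_apply, smul_eq_mul]
    exact I.mul_mem_right _ ha
  · intro x y hx hy
    rw [map_add, Finsupp.add_apply]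
    exact I.add_mem hx hy

/-- The trace of an endomorphism of a finite free module with image in `I • V` lies in `I`. -/
theorem s31fj_trace_mem {A : Type*} [CommRing A] {V : Type*} [AddCommGroup V] [Module A V]
    [Module.Free A V] [Module.Finite A V] (I : Ideal A) (f : Module.End A V)
    (hf : ∀ v, f v ∈ I • (⊤ : Submodule A V)) : LinearMap.trace A V f ∈ I := by
  classical
  rw [LinearMap.trace_eq_matrix_trace A (Module.Free.chooseBasis A V) f, Matrix.trace]
  refine I.sum_mem fun i _ => ?_
  rw [Matrix.diag_apply, LinearMap.toMatrix_apply]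
  exact s31fj_repr_mem _ I (hf _) i

/-- **[S31-CONT]** the trace of an adic Galois representation is continuous: modulo `𝔪 ^ n` it
only depends on the restriction to a finite level. -/
theorem s31fj_trace_congr {T : Type} [CommRing T] [IsLocalRing T] (ρ : GaloisRepAdic T) (n : ℕ) :
    ∃ L : IntermediateField ℚ (AlgebraicClosure ℚ), FiniteDimensional ℚ L ∧
      ∀ g h : AlgebraicClosure ℚ ≃ₐ[ℚ] AlgebraicClosure ℚ, (∀ x ∈ L, g x = h x) →
        LinearMap.trace T ρ.V (ρ.ρ g) - LinearMap.trace T ρ.V (ρ.ρ h) ∈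
          IsLocalRing.maximalIdeal T ^ n := by
  obtain ⟨L, hL, hcont⟩ := ρ.isAdicContinuous n
  refine ⟨L, hL, fun g h hgh => ?_⟩
  have hσ : ∀ x ∈ L, (h⁻¹ * g) x = x := by
    intro x hx
    rw [AlgEquiv.mul_apply, hgh x hx]
    exact h.symm_apply_apply x
  have hg : ρ.ρ g = ρ.ρ h * ρ.ρ (h⁻¹ * g) := by
    rw [← map_mul, mul_inv_cancel_left]
  rw [← map_sub]
  refine s31fj_trace_mem _ _ fun v => ?_
  have h1 := hcont (h⁻¹ * g) hσ v
  have h2 : (ρ.ρ g - ρ.ρ h) v = ρ.ρ h (ρ.ρ (h⁻¹ * g) v - v) := by
    rw [hg, LinearMap.sub_apply, Module.End.mul_apply, map_sub]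
  rw [h2]
  refine Submodule.smul_induction_on
    (p := fun y => ρ.ρ h y ∈ (IsLocalRing.maximalIdeal T ^ n) • (⊤ : Submodule T ρ.V)) h1 ?_ ?_
  · intro a ha w _
    rw [map_smul]
    exact Submodule.smul_mem_smul ha Submodule.mem_top
  · intro x y hx hy
    rw [map_add]
    exact Submodule.add_mem _ hx hy

end Fermat.Agent.S31
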