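/-
S31, leaf [LUCAS] = [LUCAS-TR] + [LUCAS-OP] (owner: helper5).  Prefix `s31luc_`.  Mathlib only.

The Lucas sequence `V_m(X, d) ∈ ℤ[X]`:  `V_0 = 2`, `V_1 = X`, `V_{m+2} = X V_{m+1} - d V_m`
(so `V_m(x + y, x y) = x^m + y^m`).

* `s31luc_trace`   : `tr (f ^ m) = V_m(t, d)` for an endomorphism `f` of a finite free module with
                     characteristic polynomial `X² - t X + d`;
* `s31luc_trace_map` : the same with `t = π x` for a ring homomorphism `π`;
* `s31luc_iter`    : `V_m(t, d) (s^m x) = s^(2m) x + d^m x` for additive maps `s`, `t` with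
                     `s² - t s + d = 0` and `t s = s t` on a subgroup `Y`;
* `s31luc_smul`    : the same for an element `σ` of a group acting on `J`;
* `s31luc_smul_inv`: `V_m(t, d) x = σ^m x + d^m σ^(-m) x`;
* `s31luc_congr`   : `V_m(t, d) x` depends only on `d` modulo an integer killing `Y`.
-/
import Mathlib

set_option autoImplicit false

open Polynomial

noncomputable section

namespace Fermat.Agent.S31

/-- The Lucas sequence `V_m(X, d)`. -/
def s31luc_V (d : ℤ) : ℕ → ℤ[X]
  | 0 => 2
  | 1 => X
  | (m + 2) => X * s31luc_V d (m + 1) - C d * s31luc_V d m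

@[simp] theorem s31luc_V_zero (d : ℤ) : s31luc_V d 0 = 2 := rfl

@[simp] theorem s31luc_V_one (d : ℤ) : s31luc_V d 1 = X := rfl

theorem s31luc_V_succ_succ (d : ℤ) (m : ℕ) :
    s31luc_V d (m + 2) = X * s31luc_V d (m + 1) - C d * s31luc_V d m := rfl

/-- The recursion after evaluation in an arbitrary `ℤ`-algebra. -/
theorem s31luc_aeval_succ_succ {E : Type*} [Ring E] [Algebra ℤ E] (t : E) (d : ℤ) (m : ℕ) :
    aeval t (s31luc_V d (m + 2)) =
      t * aeval t (s31luc_V d (m + 1)) - (d : E) * aeval t (s31luc_V d m) := by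
  rw [s31luc_V_succ_succ, map_sub, map_mul, map_mul, aeval_X, aeval_C, eq_intCast]

theorem s31luc_aeval_zero {E : Type*} [Ring E] [Algebra ℤ E] (t : E) (d : ℤ) :
    aeval t (s31luc_V d 0) = 2 := by
  rw [s31luc_V_zero]
  exact map_ofNat (aeval t) 2

theorem s31luc_aeval_one {E : Type*} [Ring E] [Algebra ℤ E] (t : E) (d : ℤ) :
    aeval t (s31luc_V d 1) = t := by
  rw [s31luc_V_one, aeval_X]

/-- `aeval` of the Lucas polynomials commutes with ring homomorphisms. -/
theorem s31luc_map_aeval {A B : Type*} [CommRing A] [CommRing B] (π : A →+* B) (x : A) (d : ℤ)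
    (m : ℕ) : π (aeval x (s31luc_V d m)) = aeval (π x) (s31luc_V d m) := by
  have h := Polynomial.aeval_algHom_apply (π.toIntAlgHom) x (s31luc_V d m)
  exact h.symm

/-! ### [LUCAS-TR] -/

section Trace

variable {A : Type*} [CommRing A] {M : Type*} [AddCommGroup M] [Module A M]
  [Module.Free A M] [Module.Finite A M]

/-- Cayley–Hamilton for a characteristic polynomial `X² - t X + d`. -/
theorem s31luc_sq (f : Module.End A M) (t d : A)
    (h : LinearMap.charpoly f = X ^ 2 - C t * X + C d) :
    f ^ 2 = t • f - d • (1 : Module.End A M) := by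
  have h1 := LinearMap.aeval_self_charpoly f
  rw [h, map_add, map_sub, map_pow, map_mul, aeval_X, aeval_C, aeval_C,
    Algebra.algebraMap_eq_smul_one, Algebra.algebraMap_eq_smul_one, smul_mul_assoc, one_mul] at h1
  rw [← sub_eq_zero, ← h1]
  abel

theorem s31luc_pow_succ_succ (f : Module.End A M) (t d : A)
    (h : LinearMap.charpoly f = X ^ 2 - C t * X + C d) (m : ℕ) :
    f ^ (m + 2) = t • f ^ (m + 1) - d • f ^ m := by
  rw [pow_add, s31luc_sq f t d h, mul_sub, mul_smul_comm, mul_smul_comm, mul_one, ← pow_succ]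

theorem s31luc_natDegree [Nontrivial A] (t d : A) :
    (X ^ 2 - C t * X + C d : A[X]).natDegree = 2 := by
  have h : (X ^ 2 - C t * X + C d : A[X]) = X ^ 2 + (C (-t) * X + C d) := by
    rw [map_neg]
    ring
  rw [h]
  have hd : (C (-t) * X + C d : A[X]).degree < ((X : A[X]) ^ 2).degree := by
    rw [degree_X_pow]
    refine lt_of_le_of_lt (degree_linear_le) ?_
    norm_num
  rw [natDegree_add_eq_left_of_degree_lt hd, natDegree_X_pow]

theorem s31luc_finrank [Nontrivial A] (f : Module.End A M) (t d : A)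
    (h : LinearMap.charpoly f = X ^ 2 - C t * X + C d) : Module.finrank A M = 2 := by
  rw [← LinearMap.charpoly_natDegree f, h, s31luc_natDegree]

theorem s31luc_trace_self [Nontrivial A] (f : Module.End A M) (t d : A)
    (h : LinearMap.charpoly f = X ^ 2 - C t * X + C d) : LinearMap.trace A M f = t := by
  classical
  let b := Module.Free.chooseBasis A M
  rw [LinearMap.trace_eq_matrix_trace A b f, Matrix.trace_eq_neg_charpoly_nextCoeff,
    LinearMap.charpoly_toMatrix f b, h,
    nextCoeff_of_natDegree_pos (by rw [s31luc_natDegree]; norm_num), s31luc_natDegree]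
  simp [coeff_X_pow, coeff_C]

/-- **[LUCAS-TR]** `tr (f ^ m) = V_m(t, d)` for an endomorphism of a finite free module with
characteristic polynomial `X² - t X + d`. -/
theorem s31luc_trace [Nontrivial A] (f : Module.End A M) (t : A) (d : ℤ)
    (h : LinearMap.charpoly f = X ^ 2 - C t * X + C (d : A)) (m : ℕ) :
    LinearMap.trace A M (f ^ m) = aeval t (s31luc_V d m) := by
  induction m using Nat.strong_induction_on with
  | _ m ih =>
    match m, ih with
    | 0, _ =>
      rw [pow_zero, LinearMap.trace_one, s31luc_finrank f t (d : A) h, s31luc_aeval_zero]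
      norm_num
    | 1, _ =>
      rw [pow_one, s31luc_trace_self f t (d : A) h, s31luc_aeval_one]
    | (m + 2), ih =>
      rw [s31luc_pow_succ_succ f t (d : A) h, map_sub, map_smul, map_smul,
        ih (m + 1) (by omega), ih m (by omega), s31luc_aeval_succ_succ, smul_eq_mul, smul_eq_mul]

/-- **[LUCAS-TR]**, with `t = π x` for a ring homomorphism `π`. -/
theorem s31luc_trace_map [Nontrivial A] {B : Type*} [CommRing B] (π : B →+* A)
    (f : Module.End A M) (x : B) (d : ℤ)
    (h : LinearMap.charpoly f = X ^ 2 - C (π x) * X + C (d : A)) (m : ℕ) :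
    LinearMap.trace A M (f ^ m) = π (aeval x (s31luc_V d m)) := by
  rw [s31luc_trace f (π x) d h m, s31luc_map_aeval]

end Trace

/-! ### [LUCAS-OP] -/

section Op

variable {J : Type*} [AddCommGroup J]

/-- `aeval t P` preserves every subgroup preserved by `t`. -/
theorem s31luc_aeval_mem (t : Module.End ℤ J) (Y : AddSubgroup J) (ht : ∀ x ∈ Y, t x ∈ Y)
    (P : ℤ[X]) : ∀ x ∈ Y, aeval t P x ∈ Y := by
  induction P using Polynomial.induction_on' with
  | add p q hp hq =>
    intro x hx
    rw [map_add, LinearMap.add_apply]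
    exact Y.add_mem (hp x hx) (hq x hx)
  | monomial n a =>
    intro x hx
    rw [aeval_monomial, Algebra.algebraMap_eq_smul_one, smul_mul_assoc, one_mul,
      LinearMap.smul_apply]
    refine Y.zsmul_mem ?_ a
    induction n generalizing x with
    | zero => rw [pow_zero]; exact hx
    | succ n ih =>
      rw [pow_succ, Module.End.mul_apply]
      exact ih (t x) (ht x hx)

/-- `aeval t P` commutes on `Y` with every additive map commuting with `t` on `Y`. -/
theorem s31luc_aeval_comm (s : J →+ J) (t : Module.End ℤ J) (Y : AddSubgroup J)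
    (ht : ∀ x ∈ Y, t x ∈ Y) (hst : ∀ x ∈ Y, t (s x) = s (t x)) (P : ℤ[X]) :
    ∀ x ∈ Y, aeval t P (s x) = s (aeval t P x) := by
  induction P using Polynomial.induction_on' with
  | add p q hp hq =>
    intro x hx
    rw [map_add, LinearMap.add_apply, LinearMap.add_apply, hp x hx, hq x hx, map_add]
  | monomial n a =>
    intro x hx
    rw [aeval_monomial, Algebra.algebraMap_eq_smul_one, smul_mul_assoc, one_mul,
      LinearMap.smul_apply, LinearMap.smul_apply, map_zsmul]
    congr 1
    induction n generalizing x with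
    | zero => rw [pow_zero]; rfl
    | succ n ih =>
      rw [pow_succ, Module.End.mul_apply, Module.End.mul_apply, hst x hx]
      exact ih (t x) (ht x hx)

theorem s31luc_iterate_mem (s : J →+ J) (Y : AddSubgroup J) (hs : ∀ x ∈ Y, s x ∈ Y) (m : ℕ) :
    ∀ x ∈ Y, s^[m] x ∈ Y := by
  induction m with
  | zero => intro x hx; exact hx
  | succ m ih =>
    intro x hx
    rw [Function.iterate_succ_apply']
    exact hs _ (ih x hx)

/-- **[LUCAS-OP]** `V_m(t, d) (s^m x) = s^(2m) x + d^m x` on a subgroup `Y` preserved by `s` and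
`t`, on which `t s = s t` and `s² - t s + d = 0`. -/
theorem s31luc_iter (s : J →+ J) (t : Module.End ℤ J) (d : ℤ) (Y : AddSubgroup J)
    (hs : ∀ x ∈ Y, s x ∈ Y) (ht : ∀ x ∈ Y, t x ∈ Y) (hst : ∀ x ∈ Y, t (s x) = s (t x))
    (hrel : ∀ x ∈ Y, s (s x) - t (s x) + d • x = 0) (m : ℕ) :
    ∀ x ∈ Y, aeval t (s31luc_V d m) (s^[m] x) = s^[2 * m] x + d ^ m • x := by
  have hts : ∀ x ∈ Y, t (s x) = s (s x) + d • x := fun x hx => by
    have h := hrel x hx
    rw [sub_add_eq_add_sub, sub_eq_zero] at h
    exact h.symm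
  induction m using Nat.strong_induction_on with
  | _ m ih =>
    match m, ih with
    | 0, _ =>
      intro x _
      rw [s31luc_aeval_zero, mul_zero, Function.iterate_zero, id_eq, pow_zero, one_smul]
      rw [← one_add_one_eq_two, LinearMap.add_apply, Module.End.one_apply]
    | 1, _ =>
      intro x hx
      rw [s31luc_aeval_one, mul_one, pow_one, Function.iterate_one]
      exact hts x hx
    | (m + 2), ih =>
      intro x hx
      have h1 := ih (m + 1) (by omega) x hx
      have h0 := ih m (by omega) x hx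
      have hm : s^[m] x ∈ Y := s31luc_iterate_mem s Y hs m x hx
      have hm1 : s^[m + 1] x ∈ Y := s31luc_iterate_mem s Y hs (m + 1) x hx
      have e2 : s^[m + 2] x = s (s^[m + 1] x) := Function.iterate_succ_apply' s (m + 1) x
      have e1 : s^[m + 2] x = s (s (s^[m] x)) := by
        rw [e2, Function.iterate_succ_apply' s m x]
      rw [s31luc_aeval_succ_succ, LinearMap.sub_apply, Module.End.mul_apply,
        Module.End.mul_apply, Module.End.intCast_apply]
      -- first term
      have hA : t (aeval t (s31luc_V d (m + 1)) (s^[m + 2] x)) =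
          s^[2 * (m + 2)] x + d • s^[2 * (m + 1)] x + d ^ (m + 1) • (s (s x) + d • x) := by
        rw [e2, s31luc_aeval_comm s t Y ht hst _ _ hm1, h1, map_add, map_zsmul, map_add,
          map_zsmul]
        have hY : s^[2 * (m + 1)] x ∈ Y := s31luc_iterate_mem s Y hs _ x hx
        rw [hts _ hY, hts x hx]
        have e3 : s (s (s^[2 * (m + 1)] x)) = s^[2 * (m + 2)] x := by
          rw [show 2 * (m + 2) = 2 * (m + 1) + 1 + 1 by ring, Function.iterate_succ_apply',
            Function.iterate_succ_apply']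
        rw [e3]
      -- second term
      have hB : aeval t (s31luc_V d m) (s^[m + 2] x) =
          s^[2 * (m + 1)] x + d ^ m • s (s x) := by
        rw [e1, s31luc_aeval_comm s t Y ht hst _ _ (hs _ hm),
          s31luc_aeval_comm s t Y ht hst _ _ hm, h0, map_add, map_add, map_zsmul, map_zsmul]
        have e3 : s (s (s^[2 * m] x)) = s^[2 * (m + 1)] x := by
          rw [show 2 * (m + 1) = 2 * m + 1 + 1 by ring, Function.iterate_succ_apply',
            Function.iterate_succ_apply']
        rw [e3]
      have e5 : d ^ (m + 1) * d = d ^ (m + 2) := (pow_succ d (m + 1)).symm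
      have e6 : d * d ^ m = d ^ (m + 1) := (pow_succ' d m).symm
      rw [hA, hB, smul_add, smul_add, smul_smul, smul_smul, e5, e6]
      abel

end Op

/-! ### The form for a group action -/

section Action

variable {G : Type*} [Group G] {J : Type*} [AddCommGroup J] [DistribMulAction G J]

/-- **[LUCAS-OP]** for an element `σ` of a group acting on `J`:
`V_m(t, d) (σ^m x) = σ^(2m) x + d^m x`. -/
theorem s31luc_smul (σ : G) (t : Module.End ℤ J) (d : ℤ) (Y : AddSubgroup J)
    (hs : ∀ x ∈ Y, σ • x ∈ Y) (ht : ∀ x ∈ Y, t x ∈ Y) (hst : ∀ x ∈ Y, t (σ • x) = σ • t x)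
    (hrel : ∀ x ∈ Y, σ • σ • x - t (σ • x) + d • x = 0) (m : ℕ) :
    ∀ x ∈ Y, aeval t (s31luc_V d m) (σ ^ m • x) = σ ^ (2 * m) • x + d ^ m • x := by
  intro x hx
  have h := s31luc_iter (DistribSMul.toAddMonoidHom J σ) t d Y hs ht hst hrel m x hx
  have e : ∀ (k : ℕ) (y : J), (DistribSMul.toAddMonoidHom J σ)^[k] y = σ ^ k • y := by
    intro k y
    induction k with
    | zero => rw [Function.iterate_zero, id_eq, pow_zero, one_smul]
    | succ k ih =>
      rw [Function.iterate_succ_apply', ih, pow_succ', mul_smul]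
      rfl
  rw [e, e] at h
  exact h

/-- **[LUCAS-OP]**, symmetric form: `V_m(t, d) x = σ^m x + d^m σ^(-m) x`. -/
theorem s31luc_smul_inv (σ : G) (t : Module.End ℤ J) (d : ℤ) (Y : AddSubgroup J)
    (hs : ∀ x ∈ Y, σ • x ∈ Y) (hs' : ∀ x ∈ Y, σ⁻¹ • x ∈ Y) (ht : ∀ x ∈ Y, t x ∈ Y)
    (hst : ∀ x ∈ Y, t (σ • x) = σ • t x)
    (hrel : ∀ x ∈ Y, σ • σ • x - t (σ • x) + d • x = 0) (m : ℕ) :
    ∀ x ∈ Y, aeval t (s31luc_V d m) x = σ ^ m • x + d ^ m • (σ ^ m)⁻¹ • x := by
  intro x hx
  have hinv : ∀ (k : ℕ), ∀ y ∈ Y, (σ ^ k)⁻¹ • y ∈ Y := by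
    intro k
    induction k with
    | zero => intro y hy; rw [pow_zero, inv_one, one_smul]; exact hy
    | succ k ih =>
      intro y hy
      rw [pow_succ, mul_inv_rev, mul_smul]
      exact hs' _ (ih y hy)
  have hy := hinv m x hx
  have h := s31luc_smul σ t d Y hs ht hst hrel m _ hy
  rw [smul_inv_smul] at h
  rw [h, two_mul, pow_add, mul_smul, smul_inv_smul]

/-- `V_m(t, d)` and `V_m(t, d')` agree on a subgroup killed by an integer dividing `d - d'`. -/
theorem s31luc_congr (t : Module.End ℤ J) (d d' : ℤ) (n : ℤ) (hn : n ∣ d - d')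
    (Y : AddSubgroup J) (ht : ∀ x ∈ Y, t x ∈ Y) (hY : ∀ x ∈ Y, n • x = 0) (m : ℕ) :
    ∀ x ∈ Y, aeval t (s31luc_V d m) x = aeval t (s31luc_V d' m) x := by
  have hdd : ∀ x ∈ Y, d • x = d' • x := fun x hx => by
    obtain ⟨c, hc⟩ := hn
    have h1 : d = d' + c * n := by rw [mul_comm, ← hc]; ring
    rw [h1, add_smul, mul_smul, hY x hx, smul_zero, add_zero]
  induction m using Nat.strong_induction_on with
  | _ m ih =>
    match m, ih with
    | 0, _ => intro x _; rw [s31luc_V_zero, s31luc_V_zero]
    | 1, _ => intro x _; rw [s31luc_V_one, s31luc_V_one]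
    | (m + 2), ih =>
      intro x hx
      rw [s31luc_aeval_succ_succ, s31luc_aeval_succ_succ, LinearMap.sub_apply,
        LinearMap.sub_apply, Module.End.mul_apply, Module.End.mul_apply, Module.End.mul_apply,
        Module.End.mul_apply, Module.End.intCast_apply, Module.End.intCast_apply,
        ih (m + 1) (by omega) x hx, ih m (by omega) x hx,
        hdd _ (s31luc_aeval_mem t Y ht _ x hx)]

end Action

end Fermat.Agent.S31

end
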