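/-
S31, leaf [LUCAS], the instance on `J₀(N)(Q̄)` (owner: helper5).  Prefix `s31luc_`.

For a Frobenius lift `σ` at `ℓ ∤ N` and a torsion point `x` of order prime to `ℓ`:

    `V_m(T_ℓ, ℓ) x = σ^m x + ℓ^m σ^(-m) x`,          `V_m(T_ℓ, ℓ) (g x) = g (V_m(T_ℓ, ℓ) x)`.

Inputs: `s29q_frob`, `s29q_hecke_smul` (helper18), `S37.s37_RhoStatement` as a hypothesis.
-/
import Mathlib
import Fermat.Agent.S29.Quad
import Fermat.Agent.S29.QuadHG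
import Fermat.Agent.S31.Lucas

set_option autoImplicit false

open Polynomial ModularCurve AlgebraicCurve

noncomputable section

namespace Fermat.Agent.S31

open Fermat.Agent.S29

/-- The `M`-torsion of `J₀(N)(Q̄)` as an additive subgroup. -/
def s31luc_tors (N M : ℕ) : AddSubgroup (JZero N) where
  carrier := {x | M • x = 0}
  zero_mem' := nsmul_zero M
  add_mem' := by
    intro a b ha hb
    change M • (a + b) = 0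
    rw [nsmul_add, ha, hb, add_zero]
  neg_mem' := by
    intro a ha
    have ha' : M • a = 0 := ha
    change M • (-a) = 0
    rw [neg_nsmul, ha', neg_zero]

theorem s31luc_mem_tors {N M : ℕ} {x : JZero N} : x ∈ s31luc_tors N M ↔ M • x = 0 := Iff.rfl

/-- Polynomials in a Hecke operator commute with the Galois action. -/
theorem s31luc_aeval_smul (N : ℕ) [NeZero N] (ℓ : Nat.Primes) (P : ℤ[X])
    (g : AlgebraicClosure ℚ ≃ₐ[ℚ] AlgebraicClosure ℚ) (x : JZero N) :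
    aeval (heckeOperatorBar N ℓ) P (g • x) = g • aeval (heckeOperatorBar N ℓ) P x :=
  s31luc_aeval_comm (DistribSMul.toAddMonoidHom (JZero N) g) (heckeOperatorBar N ℓ) ⊤
    (fun _ _ => AddSubgroup.mem_top _) (fun y _ => s29q_hecke_smul N ℓ g y) P x
    (AddSubgroup.mem_top _)

/-- Polynomials in a Hecke operator preserve torsion. -/
theorem s31luc_aeval_torsion (N : ℕ) [NeZero N] (ℓ : Nat.Primes) (P : ℤ[X]) {M : ℕ}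
    {x : JZero N} (hx : M • x = 0) : M • aeval (heckeOperatorBar N ℓ) P x = 0 :=
  s31luc_aeval_mem (heckeOperatorBar N ℓ) (s31luc_tors N M)
    (fun _ hy => s29q_hecke_torsion N ℓ hy) P x hx

/-- **[LUCAS-OP] on `J₀(N)(Q̄)`**: for a Frobenius lift `σ` at `ℓ ∤ N` and a torsion point `x` of
order prime to `ℓ`, `V_m(T_ℓ, ℓ) x = σ^m x + ℓ^m σ^(-m) x`. -/
theorem s31luc_jzero (h : S37.s37_RhoStatement) (N : ℕ) [NeZero N] {ℓ : ℕ} (hℓ : ℓ.Prime)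
    (hℓN : ¬ ℓ ∣ N) (A : ValuationSubring (AlgebraicClosure ℚ)) (hA : A.LiesOverPrime ℓ)
    {M : ℕ} (hM : ¬ ℓ ∣ M) {σ : AlgebraicClosure ℚ ≃ₐ[ℚ] AlgebraicClosure ℚ}
    (hσ : A.IsFrobeniusAt σ ℓ) (m : ℕ) (x : JZero N) (hx : M • x = 0) :
    aeval (heckeOperatorBar N ⟨ℓ, hℓ⟩) (s31luc_V (ℓ : ℤ) m) x =
      σ ^ m • x + ((ℓ : ℤ) ^ m) • (σ ^ m)⁻¹ • x := by
  refine s31luc_smul_inv σ (heckeOperatorBar N ⟨ℓ, hℓ⟩) (ℓ : ℤ) (s31luc_tors N M)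
    (fun y hy => s29q_smul_torsion N σ hy) (fun y hy => s29q_smul_torsion N σ⁻¹ hy)
    (fun y hy => s29q_hecke_torsion N ⟨ℓ, hℓ⟩ hy) (fun y _ => s29q_hecke_smul N ⟨ℓ, hℓ⟩ σ y)
    (fun y hy => ?_) m x hx
  have h1 := s29q_frob h N hℓ hℓN A hA hM hσ y hy
  rw [natCast_zsmul]
  exact h1

/-- The same, with the integer `ℓ^m` replaced by any integer congruent to it modulo `M`. -/
theorem s31luc_jzero_congr (h : S37.s37_RhoStatement) (N : ℕ) [NeZero N] {ℓ : ℕ} (hℓ : ℓ.Prime)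
    (hℓN : ¬ ℓ ∣ N) (A : ValuationSubring (AlgebraicClosure ℚ)) (hA : A.LiesOverPrime ℓ)
    {M : ℕ} (hM : ¬ ℓ ∣ M) {σ : AlgebraicClosure ℚ ≃ₐ[ℚ] AlgebraicClosure ℚ}
    (hσ : A.IsFrobeniusAt σ ℓ) (m : ℕ) (c : ℤ) (hc : (M : ℤ) ∣ (ℓ : ℤ) ^ m - c) (x : JZero N)
    (hx : M • x = 0) :
    aeval (heckeOperatorBar N ⟨ℓ, hℓ⟩) (s31luc_V (ℓ : ℤ) m) x = σ ^ m • x + c • (σ ^ m)⁻¹ • x := by
  rw [s31luc_jzero h N hℓ hℓN A hA hM hσ m x hx]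
  congr 1
  obtain ⟨e, he⟩ := hc
  have h1 : (ℓ : ℤ) ^ m = c + e * (M : ℤ) := by rw [mul_comm, ← he]; ring
  have h2 : M • ((σ ^ m)⁻¹ • x) = 0 := s29q_smul_torsion N _ hx
  rw [h1, add_zsmul, mul_zsmul, natCast_zsmul, h2, zsmul_zero, add_zero]

/-- **The comparison used in [TR]**: two Frobenius lifts `σ₁` at `ℓ₁`, `σ₂` at `ℓ₂` whose powers
`σ₁^m₁`, `σ₂^m₂` act on `x` and on `μ` in the same way (`g₁ x = g₂ x`, `g₁⁻¹ x = g₂⁻¹ x`,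
`ℓ₁^m₁ ≡ ℓ₂^m₂ mod M`) give the same Lucas operator on `x`. -/
theorem s31luc_jzero_eq (h : S37.s37_RhoStatement) (N : ℕ) [NeZero N] {ℓ₁ ℓ₂ : ℕ}
    (h₁ : ℓ₁.Prime) (h₂ : ℓ₂.Prime) (h₁N : ¬ ℓ₁ ∣ N) (h₂N : ¬ ℓ₂ ∣ N)
    (A₁ A₂ : ValuationSubring (AlgebraicClosure ℚ)) (hA₁ : A₁.LiesOverPrime ℓ₁)
    (hA₂ : A₂.LiesOverPrime ℓ₂) {M : ℕ} (hM₁ : ¬ ℓ₁ ∣ M) (hM₂ : ¬ ℓ₂ ∣ M)
    {σ₁ σ₂ : AlgebraicClosure ℚ ≃ₐ[ℚ] AlgebraicClosure ℚ} (hσ₁ : A₁.IsFrobeniusAt σ₁ ℓ₁)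
    (hσ₂ : A₂.IsFrobeniusAt σ₂ ℓ₂) (m₁ m₂ : ℕ)
    (hc : (M : ℤ) ∣ (ℓ₁ : ℤ) ^ m₁ - (ℓ₂ : ℤ) ^ m₂) (x : JZero N) (hx : M • x = 0)
    (hpos : σ₁ ^ m₁ • x = σ₂ ^ m₂ • x) (hneg : (σ₁ ^ m₁)⁻¹ • x = (σ₂ ^ m₂)⁻¹ • x) :
    aeval (heckeOperatorBar N ⟨ℓ₁, h₁⟩) (s31luc_V (ℓ₁ : ℤ) m₁) x =
      aeval (heckeOperatorBar N ⟨ℓ₂, h₂⟩) (s31luc_V (ℓ₂ : ℤ) m₂) x := by
  rw [s31luc_jzero_congr h N h₁ h₁N A₁ hA₁ hM₁ hσ₁ m₁ ((ℓ₂ : ℤ) ^ m₂) hc x hx,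
    s31luc_jzero h N h₂ h₂N A₂ hA₂ hM₂ hσ₂ m₂ x hx, hpos, hneg]

end Fermat.Agent.S31

end
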