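/-
S31, leaf [S31-TR] (helper19).  Prefix `s31tr_`.

THE TRACE CRITERION.  Let `T` be a local ring and `ρ : GaloisRepAdic T` a representation whose
residual representation is absolutely irreducible.  Then

* `s31tr_span`: the `T`-span of `ρ(G)` is all of `End_T(V)` (Burnside for the residual
  representation + Nakayama);
* `s31tr_zero`: an endomorphism `u` with `tr(ρ(g) ∘ u) = 0` for all `g` is zero (the trace form
  of `End_T(V)`, `V` free of finite rank, is non-degenerate);
* `s31tr_main`: if `tr ρ(τ g) = tr ρ(g)` for all `g` then `ρ(τ) = 1`.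
-/
import Mathlib
import Fermat.Prelude.Def_GaloisRep_Adic
import Fermat.Agent.S53.Burnside

set_option autoImplicit false

open scoped TensorProduct

namespace Fermat.Agent.S31

section Algebra

variable {T : Type*} [CommRing T] {V : Type*} [AddCommGroup V] [Module T V]

/-- The trace form of the endomorphisms of a finite free module is non-degenerate. -/
theorem s31tr_trace_nondeg [Module.Free T V] [Module.Finite T V] (u : Module.End T V)
    (h : ∀ a : Module.End T V, LinearMap.trace T V (a * u) = 0) : u = 0 := by
  classical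
  let b := Module.Free.chooseBasis T V
  have hM : LinearMap.toMatrix b b u = 0 := by
    rw [Matrix.ext_iff_trace_mul_left]
    intro x
    have := h (Matrix.toLin b b x)
    rw [LinearMap.trace_eq_matrix_trace T b, Module.End.mul_eq_comp, LinearMap.toMatrix_comp b b b,
      LinearMap.toMatrix_toLin] at this
    rw [this, mul_zero, Matrix.trace_zero]
  exact (LinearMap.toMatrix b b).injective (by rw [hM, map_zero])

end Algebra

section Span

variable {T : Type} [CommRing T] [IsLocalRing T]

/-- An endomorphism of a finite free module whose reduction modulo the maximal ideal vanishes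
lies in `𝔪 • End`. -/
theorem s31tr_mem_smul_of_baseChange_eq_zero {V : Type*} [AddCommGroup V] [Module T V]
    [Module.Free T V] [Module.Finite T V] (g : Module.End T V)
    (hg : g.baseChange (IsLocalRing.ResidueField T) = 0) :
    g ∈ IsLocalRing.maximalIdeal T • (⊤ : Submodule T (Module.End T V)) := by
  classical
  let b := Module.Free.chooseBasis T V
  have hent : ∀ i j, LinearMap.toMatrix b b g i j ∈ IsLocalRing.maximalIdeal T := by
    intro i j
    have h1 : (g.baseChange (IsLocalRing.ResidueField T))
        ((1 : IsLocalRing.ResidueField T) ⊗ₜ[T] b j) = 0 := by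
      rw [hg, LinearMap.zero_apply]
    rw [LinearMap.baseChange_tmul] at h1
    have h2 := congrArg (fun x => (b.baseChange (IsLocalRing.ResidueField T)).repr x i) h1
    simp only [Module.Basis.baseChange_repr_tmul, map_zero, Finsupp.zero_apply] at h2
    rw [LinearMap.toMatrix_apply, ← IsLocalRing.residue_eq_zero_iff]
    rw [Algebra.smul_def, mul_one] at h2
    exact h2
  have hg' : g = ∑ i, ∑ j, LinearMap.toMatrix b b g i j •
      Matrix.toLin b b (Matrix.single i j (1 : T)) := by
    apply (LinearMap.toMatrix b b).injective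
    rw [map_sum]
    conv_lhs => rw [Matrix.matrix_eq_sum_single (LinearMap.toMatrix b b g)]
    refine Finset.sum_congr rfl fun i _ => ?_
    rw [map_sum]
    refine Finset.sum_congr rfl fun j _ => ?_
    rw [map_smul, LinearMap.toMatrix_toLin, Matrix.smul_single, smul_eq_mul, mul_one]
  rw [hg']
  refine Submodule.sum_mem _ fun i _ => Submodule.sum_mem _ fun j _ => ?_
  exact Submodule.smul_mem_smul (hent i j) Submodule.mem_top

local notation "Γℚ" => (AlgebraicClosure ℚ ≃ₐ[ℚ] AlgebraicClosure ℚ)

/-- **Burnside + Nakayama**: the `T`-span of the image of an adic Galois representation with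
absolutely irreducible reduction is the full endomorphism algebra. -/
theorem s31tr_span (ρ : GaloisRepAdic T) (habs : ρ.residual.IsAbsolutelyIrreducible) :
    Submodule.span T (Set.range ρ.ρ) = ⊤ := by
  classical
  have hfg : (⊤ : Submodule T (Module.End T ρ.V)).FG := Module.Finite.fg_top
  have hjac : IsLocalRing.maximalIdeal T ≤ Ideal.jacobson ⊥ :=
    IsLocalRing.maximalIdeal_le_jacobson _
  refine top_le_iff.mp (Submodule.le_of_le_smul_of_le_jacobson_bot hfg hjac ?_)
  intro f _
  obtain ⟨c, hc⟩ := S53.exists_finsupp_residue_sum_eq ρ.residual habs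
    (f.baseChange (IsLocalRing.ResidueField T))
  have hsum : (c.sum fun σ a => a • ρ.ρ σ) ∈ Submodule.span T (Set.range ρ.ρ) :=
    Submodule.sum_mem _ fun σ _ =>
      Submodule.smul_mem _ _ (Submodule.subset_span (Set.mem_range_self σ))
  have hbc : (c.sum fun σ a => a • ρ.ρ σ).baseChange (IsLocalRing.ResidueField T) =
      ∑ σ ∈ c.support, IsLocalRing.residue T (c σ) •
        (ρ.ρ σ).baseChange (IsLocalRing.ResidueField T) := by
    rw [Finsupp.sum, ← LinearMap.baseChangeHom_apply T (IsLocalRing.ResidueField T), map_sum]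
    refine Finset.sum_congr rfl fun σ _ => ?_
    rw [LinearMap.baseChangeHom_apply, LinearMap.baseChange_smul,
      ← algebraMap_smul (IsLocalRing.ResidueField T) (c σ),
      IsLocalRing.ResidueField.algebraMap_eq]
  have hred : (f - c.sum fun σ a => a • ρ.ρ σ).baseChange (IsLocalRing.ResidueField T) = 0 := by
    rw [LinearMap.baseChange_sub, hbc]
    exact sub_eq_zero.mpr hc.symm
  have hmem := s31tr_mem_smul_of_baseChange_eq_zero _ hred
  rw [show f = (c.sum fun σ a => a • ρ.ρ σ) + (f - c.sum fun σ a => a • ρ.ρ σ) by abel]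
  exact Submodule.add_mem_sup hsum hmem

/-- **The trace criterion, kernel form**: an endomorphism `u` with `tr(ρ(g) ∘ u) = 0` for all
`g` is zero. -/
theorem s31tr_zero (ρ : GaloisRepAdic T) (habs : ρ.residual.IsAbsolutelyIrreducible)
    (u : Module.End T ρ.V) (h : ∀ g : Γℚ, LinearMap.trace T ρ.V (ρ.ρ g * u) = 0) : u = 0 := by
  refine s31tr_trace_nondeg u fun a => ?_
  have ha : a ∈ Submodule.span T (Set.range ρ.ρ) := by
    rw [s31tr_span ρ habs]; exact Submodule.mem_top
  induction ha using Submodule.span_induction with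
  | mem x hx =>
    obtain ⟨g, rfl⟩ := hx
    exact h g
  | zero => rw [zero_mul, map_zero]
  | add x y _ _ hx hy => rw [add_mul, map_add, hx, hy, add_zero]
  | smul c x _ hx => rw [smul_mul_assoc, map_smul, hx, smul_zero]

/-- The same with `u` on the left. -/
theorem s31tr_zero' (ρ : GaloisRepAdic T) (habs : ρ.residual.IsAbsolutelyIrreducible)
    (u : Module.End T ρ.V) (h : ∀ g : Γℚ, LinearMap.trace T ρ.V (u * ρ.ρ g) = 0) : u = 0 :=
  s31tr_zero ρ habs u fun g => by rw [LinearMap.trace_mul_comm]; exact h g

/-- **The trace criterion** [S31-TR]: if `tr ρ(τ g) = tr ρ(g)` for all `g`, then `ρ(τ) = 1`. -/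
theorem s31tr_main (ρ : GaloisRepAdic T) (habs : ρ.residual.IsAbsolutelyIrreducible) (τ : Γℚ)
    (h : ∀ g : Γℚ, ρ.trace (τ * g) = ρ.trace g) : ρ.ρ τ = 1 := by
  have h0 : ρ.ρ τ - 1 = 0 := by
    refine s31tr_zero' ρ habs _ fun g => ?_
    have := h g
    rw [GaloisRepAdic.trace, GaloisRepAdic.trace, map_mul] at this
    rw [sub_mul, one_mul, map_sub, this, sub_self]
  exact sub_eq_zero.mp h0

/-- The same with `τ` on the right. -/
theorem s31tr_main' (ρ : GaloisRepAdic T) (habs : ρ.residual.IsAbsolutelyIrreducible) (τ : Γℚ)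
    (h : ∀ g : Γℚ, ρ.trace (g * τ) = ρ.trace g) : ρ.ρ τ = 1 := by
  have h0 : ρ.ρ τ - 1 = 0 := by
    refine s31tr_zero ρ habs _ fun g => ?_
    have := h g
    rw [GaloisRepAdic.trace, GaloisRepAdic.trace, map_mul] at this
    rw [mul_sub, mul_one, map_sub, this, sub_self]
  exact sub_eq_zero.mp h0

end Span

end Fermat.Agent.S31
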