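/-
S31, leaf [KER] = [S31-TR] (helper19).  Prefix `s31tr_`.

The export `s31tr_ker : s31_KerStatement`, VERBATIM the `Prop` of `S31/Defs.lean`.
-/
import Fermat.Agent.S31.Defs
import Fermat.Agent.S31.Tr

set_option autoImplicit false

namespace Fermat.Agent.S31

/-- **[KER]**: the kernel of a residually absolutely irreducible representation over a local ring
is determined by its trace. -/
theorem s31tr_ker : s31_KerStatement :=
  fun _ _ _ ρ habs g h => s31tr_main ρ habs g h

example : s31_KerStatement := s31tr_ker

/-- S31 from the trace congruences [TR] alone. -/
theorem s31tr_goal_of_trace (hTr : s31_TraceStatement) : s31_Goal :=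
  s31_goal_of s31tr_ker hTr

end Fermat.Agent.S31
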