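/-
S31 (architect: helper6).  Prefix `s31c_`.  The cut of [TR-OF]: the `Prop`s consumed by the
assembly `s31c_trace_of` (file `S31/TraceOf.lean`), on top of helper9's `S31/Defs.lean`.

  [TR] = `s31_TraceStatement`  ⇐  [FAITH] + [FD] + [RHO] + [CYC-k] + [CONT] + [TRACE-FROB] + [JD]

* [CYC-k]       `s31c_CycStatement`: the cyclotomic character modulo `p ^ k`;
* [CONT]        `s31c_ContStatement`: the trace of an adic representation modulo `𝔪 ^ n` only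
                depends on the restriction to a finite level;
* [TRACE-FROB]  `s31c_TraceFrobStatement V`: `tr ρ(σ ^ m) = π (V_m(T_ℓ))` for a Frobenius lift `σ`;
* [JD]          `s31c_LucasJStatement V`: `V_m(T_ℓ) (σ ^ m • x) = σ ^ (2 m) • x + ℓ ^ m • x` on the
                torsion of order prime to `ℓ` of `J₀(N)(Q̄)`.
Here `V : ℤ → ℕ → ℤ[X]` is an arbitrary family of polynomials (it will be the Lucas sequence
`V_0 = 2`, `V_1 = X`, `V_(m+2) = X V_(m+1) - d V_m`).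
-/
import Mathlib
import Fermat.Prelude.Def_CuspForm_HeckeGaloisRepDatum
import Fermat.Prelude.Def_ModularCurve_HeckeModule
import Fermat.Prelude.Def_EllipticCurve_FrobeniusTrace
import Fermat.Agent.S37.Defs

set_option autoImplicit false

open Polynomial ModularCurve CuspForm

noncomputable section

namespace Fermat.Agent.S31

/-- **[CYC-k]** the cyclotomic character modulo `p ^ k`. -/
def s31c_CycStatement : Prop :=
  ∀ (p : ℕ), p.Prime → ∀ k : ℕ,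
    ∃ χ : (AlgebraicClosure ℚ ≃ₐ[ℚ] AlgebraicClosure ℚ) →* ZMod (p ^ k),
      GaloisFactorsThroughFiniteLevel χ ∧
      (∀ ℓ : ℕ, ℓ.Prime → ℓ ≠ p →
        ∀ A : ValuationSubring (AlgebraicClosure ℚ), A.LiesOverPrime ℓ →
          ∀ σ ∈ A.inertiaSubgroupIn ℚ, χ σ = 1) ∧
      (∀ ℓ : ℕ, ℓ.Prime → ℓ ≠ p →
        ∀ A : ValuationSubring (AlgebraicClosure ℚ), A.LiesOverPrime ℓ →
          ∀ σ : AlgebraicClosure ℚ ≃ₐ[ℚ] AlgebraicClosure ℚ, A.IsFrobeniusAt σ ℓ →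
            χ σ = (ℓ : ZMod (p ^ k)))

/-- **[CONT]** modulo `𝔪 ^ n` the trace of an adic representation only depends on the restriction
to a finite level. -/
def s31c_ContStatement : Prop :=
  ∀ (T : Type) [CommRing T] [IsLocalRing T] (ρ : GaloisRepAdic T) (n : ℕ),
    ∃ L : IntermediateField ℚ (AlgebraicClosure ℚ), FiniteDimensional ℚ L ∧
      ∀ g h : AlgebraicClosure ℚ ≃ₐ[ℚ] AlgebraicClosure ℚ, (∀ x ∈ L, g x = h x) →
        LinearMap.trace T ρ.V (ρ.ρ g) - LinearMap.trace T ρ.V (ρ.ρ h) ∈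
          IsLocalRing.maximalIdeal T ^ n

/-- **[TRACE-FROB]** the trace of the `m`-th power of a Frobenius lift at `ℓ ∉ S` is the image of
`V_m(T_ℓ)`. -/
def s31c_TraceFrobStatement (V : ℤ → ℕ → ℤ[X]) : Prop :=
  ∀ (N : ℕ) [NeZero N] (S : Set ℕ)
    (𝒪 : Type) [CommRing 𝒪] [IsDomain 𝒪] [IsDiscreteValuationRing 𝒪]
    [IsAdicComplete (IsLocalRing.maximalIdeal 𝒪) 𝒪]
    (θ : CuspForm.heckeAlgebra N 2 S →+* IsLocalRing.ResidueField 𝒪)
    (T : Type) [CommRing T] [IsLocalRing T] [IsNoetherianRing T]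
    [IsAdicComplete (IsLocalRing.maximalIdeal T) T] [Algebra 𝒪 T] [IsLocalHom (algebraMap 𝒪 T)]
    [Module.Finite 𝒪 T] [Module.Free 𝒪 T]
    (H : CuspForm.HeckeGaloisRepDatum N S 𝒪 θ T)
    (ℓ : ℕ) (hℓ : ℓ.Prime) (hℓN : ¬ ℓ ∣ N) (hℓS : ℓ ∉ S)
    (A : ValuationSubring (AlgebraicClosure ℚ)), A.LiesOverPrime ℓ →
    ∀ σ : AlgebraicClosure ℚ ≃ₐ[ℚ] AlgebraicClosure ℚ, A.IsFrobeniusAt σ ℓ → ∀ m : ℕ,
      LinearMap.trace T H.ρ.V (H.ρ.ρ (σ ^ m)) =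
        H.π (Polynomial.aeval (CuspForm.heckeAlgebra.T (k := 2) (S := S) hℓ hℓN hℓS) (V (ℓ : ℤ) m))

/-- **[JD]** the Lucas relation on the torsion of order prime to `ℓ` of `J₀(N)(Q̄)`, in the
inverse-free form. -/
def s31c_LucasJStatement (V : ℤ → ℕ → ℤ[X]) : Prop :=
  ∀ (N : ℕ) [NeZero N] (ℓ : ℕ) (hℓ : ℓ.Prime), ¬ ℓ ∣ N →
    ∀ A : ValuationSubring (AlgebraicClosure ℚ), A.LiesOverPrime ℓ →
      ∀ (M : ℕ), ¬ ℓ ∣ M →
        ∀ σ : AlgebraicClosure ℚ ≃ₐ[ℚ] AlgebraicClosure ℚ, A.IsFrobeniusAt σ ℓ →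
          ∀ x : JZero N, M • x = 0 → ∀ m : ℕ,
            Polynomial.aeval (heckeOperatorBar N ⟨ℓ, hℓ⟩) (V (ℓ : ℤ) m) (σ ^ m • x) =
              σ ^ (2 * m) • x + (ℓ ^ m) • x

end Fermat.Agent.S31
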