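/-
S31 (architect: helper6).  Prefix `s31c_`.  **[TR-OF]**: the assembly

  `s31c_trace_of : [JD] → [TRACE-FROB] → [CONT] → [FAITH] → [FD] → [RHO] → [CYC-k] → [TR]`.

Fix `h`, `τ` (in an inertia group at `q ∉ S`) and `n`.  Let `e` be the constant of [FAITH],
`k := n + e`, `X ⊆ J₀(N)(Q̄)[p^k]` the finite set of [FAITH], `X' := X ∪ h⁻¹ • X`, and `L` a finite
level such that the action on `X'`, the trace of `ρ` modulo `𝔪ⁿ` and the cyclotomic character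
modulo `p^k` only depend on the restriction to `L`.  [FD] gives Frobenius lifts `σ₁` at `ℓ₁ ∉ S`,
`σ₂` at `ℓ₂ ∉ S` with `σ₁ ^ m₁ = τ h` and `σ₂ ^ m₂ = h` on `L`.  For `x ∈ X` and `y := h⁻¹ • x`:
`V_{m₁}(T_{ℓ₁}) x = V_{m₁}(T_{ℓ₁}) (σ₁^{m₁} • y) = σ₁^{2 m₁} • y + ℓ₁^{m₁} • y = h • x + ℓ₁^{m₁} • y`
(the inertia group at `q` acts trivially on `J[p^k]`), in the same way
`V_{m₂}(T_{ℓ₂}) x = h • x + ℓ₂^{m₂} • y`, and `ℓ₁^{m₁} ≡ ℓ₂^{m₂}` modulo `p^k` (both are the value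
of the cyclotomic character at `h`).  So [FAITH] gives
`V_{m₁}(T_{ℓ₁}) - V_{m₂}(T_{ℓ₂}) ∈ pⁿ 𝕋`, and
`tr ρ(τ h) ≡ tr ρ(σ₁^{m₁}) = π V_{m₁}(T_{ℓ₁}) ≡ π V_{m₂}(T_{ℓ₂}) = tr ρ(σ₂^{m₂}) ≡ tr ρ(h)`.
-/
import Mathlib
import Fermat.Agent.S31.Defs
import Fermat.Agent.S31.Cut
import Fermat.Agent.S29.Defs
import Fermat.Agent.S29.Quad
import Fermat.Agent.S29.FinLevel

set_option autoImplicit false

open Polynomial ModularCurve CuspForm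

noncomputable section

namespace Fermat.Agent.S31

/-- Multiples of a torsion point only depend on the residue class of the multiplier. -/
theorem s31c_smul_congr {J : Type*} [AddCommGroup J] {M a b : ℕ}
    (hab : (a : ZMod M) = (b : ZMod M)) (y : J) (hy : M • y = 0) : a • y = b • y := by
  have h1 : (M : ℤ) ∣ (b : ℤ) - (a : ℤ) :=
    (Nat.modEq_iff_dvd).1 ((ZMod.natCast_eq_natCast_iff a b M).1 hab)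
  obtain ⟨c, hc⟩ := h1
  have h2 : ((b : ℤ) - (a : ℤ)) • y = 0 := by
    rw [hc, mul_comm, mul_smul, natCast_zsmul, hy, smul_zero]
  rw [sub_smul, natCast_zsmul, natCast_zsmul, sub_eq_zero] at h2
  exact h2.symm

/-- `p` lies in the maximal ideal of `T`. -/
theorem s31c_p_mem {𝒪 T : Type} [CommRing 𝒪] [IsLocalRing 𝒪] [CommRing T] [IsLocalRing T]
    [Algebra 𝒪 T] [IsLocalHom (algebraMap 𝒪 T)] {p : ℕ}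
    (hp : (p : 𝒪) ∈ IsLocalRing.maximalIdeal 𝒪) : (p : T) ∈ IsLocalRing.maximalIdeal T := by
  rw [IsLocalRing.mem_maximalIdeal, mem_nonunits_iff] at hp ⊢
  intro hu
  apply hp
  have h1 : algebraMap 𝒪 T (p : 𝒪) = (p : T) := map_natCast _ p
  rw [← h1] at hu
  exact isUnit_of_map_unit (algebraMap 𝒪 T) _ hu

/-- A character which is trivial on the elements fixing `L` only depends on the restriction to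
`L`. -/
theorem s31c_chi_congr {M₀ : Type} [Monoid M₀]
    (χ : (AlgebraicClosure ℚ ≃ₐ[ℚ] AlgebraicClosure ℚ) →* M₀)
    (L : IntermediateField ℚ (AlgebraicClosure ℚ))
    (hL : ∀ σ : AlgebraicClosure ℚ ≃ₐ[ℚ] AlgebraicClosure ℚ, (∀ x ∈ L, σ x = x) → χ σ = 1)
    (g g' : AlgebraicClosure ℚ ≃ₐ[ℚ] AlgebraicClosure ℚ) (h : ∀ x ∈ L, g x = g' x) :
    χ g = χ g' := by
  have h1 : χ (g'⁻¹ * g) = 1 := by
    refine hL _ fun x hx => ?_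
    show g'⁻¹ (g x) = x
    rw [h x hx]
    exact g'.symm_apply_apply x
  calc χ g = χ (g' * (g'⁻¹ * g)) := by rw [mul_inv_cancel_left]
    _ = χ g' := by rw [map_mul, h1, mul_one]

/-- **[TR-OF]** the assembly. -/
theorem s31c_trace_of (V : ℤ → ℕ → ℤ[X]) (hLJ : s31c_LucasJStatement V)
    (hTF : s31c_TraceFrobStatement V) (hCont : s31c_ContStatement)
    (hFaith : s31_FaithStatement) (hFD : Fermat.Agent.S29.s29_FDStatement)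
    (hRho : Fermat.Agent.S37.s37_RhoStatement) (hCyc : s31c_CycStatement) :
    s31_TraceStatement := by
  classical
  intro p N _ S 𝒪 _ _ _ _ θ T _ _ _ _ _ _ _ _ hp hp𝒪 hpS hNS H q hq hqS P hP τ hτ h n
  obtain ⟨e, he⟩ := hFaith N S p hp hpS hNS
  obtain ⟨X, hXtors, hX⟩ := he (n + e)
  -- the levels
  obtain ⟨L₁, hL₁fin, hL₁⟩ :=
    Fermat.Agent.S29.s29fl_smul_eq_of_eq_on N (X ∪ X.image (fun x => h⁻¹ • x))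
  obtain ⟨L₂, hL₂fin, hL₂⟩ := hCont T H.ρ n
  obtain ⟨χ, ⟨L₃, hL₃fin, hL₃⟩, hχI, hχF⟩ := hCyc p hp (n + e)
  have := hL₁fin
  have := hL₂fin
  have := hL₃fin
  have hLfin : FiniteDimensional ℚ ↥(L₁ ⊔ L₂ ⊔ L₃) := by
    have : FiniteDimensional ℚ ↥(L₁ ⊔ L₂) := IntermediateField.finiteDimensional_sup L₁ L₂
    exact IntermediateField.finiteDimensional_sup (L₁ ⊔ L₂) L₃
  have hle₁ : L₁ ≤ L₁ ⊔ L₂ ⊔ L₃ := le_sup_left.trans le_sup_left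
  have hle₂ : L₂ ≤ L₁ ⊔ L₂ ⊔ L₃ := le_sup_right.trans le_sup_left
  have hle₃ : L₃ ≤ L₁ ⊔ L₂ ⊔ L₃ := le_sup_right
  -- the two Frobenius lifts
  obtain ⟨ℓ₁, hℓ₁, hℓ₁S, A₁, hA₁, σ₁, hσ₁, -, m₁, -, hm₁⟩ := hFD _ hLfin (τ * h) S
  obtain ⟨ℓ₂, hℓ₂, hℓ₂S, A₂, hA₂, σ₂, hσ₂, -, m₂, -, hm₂⟩ := hFD _ hLfin h S
  have hℓ₁N : ¬ ℓ₁ ∣ N := fun hd => hℓ₁S (hNS ℓ₁ hℓ₁ hd)
  have hℓ₂N : ¬ ℓ₂ ∣ N := fun hd => hℓ₂S (hNS ℓ₂ hℓ₂ hd)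
  have hqN : ¬ q ∣ N := fun hd => hqS (hNS q hq hd)
  have hℓ₁p : ℓ₁ ≠ p := fun hd => hℓ₁S (hd ▸ hpS)
  have hℓ₂p : ℓ₂ ≠ p := fun hd => hℓ₂S (hd ▸ hpS)
  have hqp : q ≠ p := fun hd => hqS (hd ▸ hpS)
  have hndvd : ∀ r : ℕ, r.Prime → r ≠ p → ¬ r ∣ p ^ (n + e) := fun r hr hrp hd =>
    hrp ((Nat.prime_dvd_prime_iff_eq hr hp).1 (hr.dvd_of_dvd_pow hd))
  -- the inertia group at `q` acts trivially on the `p ^ k`-torsion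
  have hτfix : ∀ y : JZero N, p ^ (n + e) • y = 0 → τ • y = y := fun y hy =>
    Fermat.Agent.S29.s29q_inertia hRho N hq hqN P hP (hndvd q hq hqp) hτ y hy
  -- the cyclotomic character
  have hχ₁ : ((ℓ₁ ^ m₁ : ℕ) : ZMod (p ^ (n + e))) = χ h := by
    have h1 : χ (σ₁ ^ m₁) = χ (τ * h) :=
      s31c_chi_congr χ L₃ hL₃ _ _ fun x hx => hm₁ x (hle₃ hx)
    rw [map_pow, hχF ℓ₁ hℓ₁ hℓ₁p A₁ hA₁ σ₁ hσ₁, map_mul, hχI q hq hqp P hP τ hτ, one_mul] at h1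
    rw [Nat.cast_pow, h1]
  have hχ₂ : ((ℓ₂ ^ m₂ : ℕ) : ZMod (p ^ (n + e))) = χ h := by
    have h1 : χ (σ₂ ^ m₂) = χ h :=
      s31c_chi_congr χ L₃ hL₃ _ _ fun x hx => hm₂ x (hle₃ hx)
    rw [map_pow, hχF ℓ₂ hℓ₂ hℓ₂p A₂ hA₂ σ₂ hσ₂] at h1
    rw [Nat.cast_pow, h1]
  -- the relation on `X`
  have hrel : ∀ x ∈ X,
      Polynomial.aeval (heckeOperatorBar N ⟨ℓ₁, hℓ₁⟩) (V (ℓ₁ : ℤ) m₁) x =
        Polynomial.aeval (heckeOperatorBar N ⟨ℓ₂, hℓ₂⟩) (V (ℓ₂ : ℤ) m₂) x := by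
    intro x hx
    have hxt : p ^ (n + e) • x = 0 := hXtors x hx
    have hyt : p ^ (n + e) • (h⁻¹ • x) = 0 := Fermat.Agent.S29.s29q_smul_torsion N h⁻¹ hxt
    have hhxt : p ^ (n + e) • (h • x) = 0 := Fermat.Agent.S29.s29q_smul_torsion N h hxt
    have hxX : x ∈ X ∪ X.image (fun x => h⁻¹ • x) := Finset.mem_union_left _ hx
    have hyX : h⁻¹ • x ∈ X ∪ X.image (fun x => h⁻¹ • x) :=
      Finset.mem_union_right _ (Finset.mem_image_of_mem _ hx)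
    have hhy : h • h⁻¹ • x = x := smul_inv_smul h x
    -- first Frobenius
    have e1 : σ₁ ^ m₁ • (h⁻¹ • x) = x := by
      rw [hL₁ (σ₁ ^ m₁) (τ * h) (fun a ha => hm₁ a (hle₁ ha)) _ hyX, mul_smul, hhy, hτfix x hxt]
    have e2 : σ₁ ^ m₁ • x = h • x := by
      rw [hL₁ (σ₁ ^ m₁) (τ * h) (fun a ha => hm₁ a (hle₁ ha)) _ hxX, mul_smul, hτfix _ hhxt]
    have e3 : σ₁ ^ (2 * m₁) • (h⁻¹ • x) = h • x := by
      rw [two_mul, pow_add, mul_smul, e1, e2]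
    have r1 := hLJ N ℓ₁ hℓ₁ hℓ₁N A₁ hA₁ (p ^ (n + e)) (hndvd ℓ₁ hℓ₁ hℓ₁p) σ₁ hσ₁ (h⁻¹ • x) hyt m₁
    rw [e1, e3] at r1
    -- second Frobenius
    have f1 : σ₂ ^ m₂ • (h⁻¹ • x) = x := by
      rw [hL₁ (σ₂ ^ m₂) h (fun a ha => hm₂ a (hle₁ ha)) _ hyX, hhy]
    have f2 : σ₂ ^ m₂ • x = h • x := by
      rw [hL₁ (σ₂ ^ m₂) h (fun a ha => hm₂ a (hle₁ ha)) _ hxX]
    have f3 : σ₂ ^ (2 * m₂) • (h⁻¹ • x) = h • x := by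
      rw [two_mul, pow_add, mul_smul, f1, f2]
    have r2 := hLJ N ℓ₂ hℓ₂ hℓ₂N A₂ hA₂ (p ^ (n + e)) (hndvd ℓ₂ hℓ₂ hℓ₂p) σ₂ hσ₂ (h⁻¹ • x) hyt m₂
    rw [f1, f3] at r2
    rw [r1, r2, s31c_smul_congr (hχ₁.trans hχ₂.symm) _ hyt]
  obtain ⟨t, ht⟩ := hX ℓ₁ ℓ₂ hℓ₁ hℓ₂ hℓ₁N hℓ₂N hℓ₁S hℓ₂S (V (ℓ₁ : ℤ) m₁) (V (ℓ₂ : ℤ) m₂) hrel
  rw [Nat.add_sub_cancel] at ht
  -- the traces
  have t1 := hL₂ (τ * h) (σ₁ ^ m₁) fun x hx => (hm₁ x (hle₂ hx)).symm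
  have t2 := hL₂ (σ₂ ^ m₂) h fun x hx => hm₂ x (hle₂ hx)
  have t3 := hTF N (↑S : Set ℕ) 𝒪 θ T H ℓ₁ hℓ₁ hℓ₁N hℓ₁S A₁ hA₁ σ₁ hσ₁ m₁
  have t4 := hTF N (↑S : Set ℕ) 𝒪 θ T H ℓ₂ hℓ₂ hℓ₂N hℓ₂S A₂ hA₂ σ₂ hσ₂ m₂
  have t5 : LinearMap.trace T H.ρ.V (H.ρ.ρ (σ₁ ^ m₁)) - LinearMap.trace T H.ρ.V (H.ρ.ρ (σ₂ ^ m₂)) ∈
      IsLocalRing.maximalIdeal T ^ n := by
    rw [t3, t4, ← map_sub, ht, map_zsmul, zsmul_eq_mul]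
    refine Ideal.mul_mem_right _ _ ?_
    have h1 : (((p : ℤ) ^ n : ℤ) : T) = (p : T) ^ n := by push_cast; rfl
    rw [h1]
    exact Ideal.pow_mem_pow (s31c_p_mem hp𝒪) n
  have key : LinearMap.trace T H.ρ.V (H.ρ.ρ (τ * h)) - LinearMap.trace T H.ρ.V (H.ρ.ρ h) =
      (LinearMap.trace T H.ρ.V (H.ρ.ρ (τ * h)) - LinearMap.trace T H.ρ.V (H.ρ.ρ (σ₁ ^ m₁))) +
      (LinearMap.trace T H.ρ.V (H.ρ.ρ (σ₁ ^ m₁)) - LinearMap.trace T H.ρ.V (H.ρ.ρ (σ₂ ^ m₂))) +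
      (LinearMap.trace T H.ρ.V (H.ρ.ρ (σ₂ ^ m₂)) - LinearMap.trace T H.ρ.V (H.ρ.ρ h)) := by
    ring
  rw [key]
  exact Ideal.add_mem _ (Ideal.add_mem _ t1 t5) t2

end Fermat.Agent.S31
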