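/-
S31 (architect: helper6).  Prefix `s31c_`.  The wire of [TR]: the leaves [JD], [TRACE-FROB], [CONT]
for the Lucas polynomials `s31luc_V` (helper5), plugged into the assembly `s31c_trace_of`.

  `s31c_trace_main_of : [FAITH] → [FD] → [RHO] → [CYC-k] → [TR]`
  `s31c_goal_main_of  : [FAITH] → [FD] → [RHO] → [CYC-k] → S31`
-/
import Mathlib
import Fermat.Agent.S31.TraceOf
import Fermat.Agent.S31.TrKer
import Fermat.Agent.S31.FrobCont
import Fermat.Agent.S31.LucasJ

set_option autoImplicit false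

open Polynomial ModularCurve CuspForm

noncomputable section

namespace Fermat.Agent.S31

/-- **[CONT]** (helper3's `s31fj_trace_congr`). -/
theorem s31c_cont_main : s31c_ContStatement :=
  fun _ _ _ ρ n => s31fj_trace_congr ρ n

/-- **[TRACE-FROB]** for the Lucas polynomials (helper5's `s31luc_trace_map`). -/
theorem s31c_traceFrob_main : s31c_TraceFrobStatement s31luc_V := by
  intro N _ S 𝒪 _ _ _ _ θ T _ _ _ _ _ _ _ _ H ℓ hℓ hℓN hℓS A hA σ hσ m
  have h1 := H.charpoly_frob ℓ hℓ hℓN hℓS A hA σ hσ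
  have h2 : ((ℓ : ℕ) : T) = (((ℓ : ℤ) : ℤ) : T) := by push_cast; rfl
  rw [h2] at h1
  rw [map_pow]
  exact s31luc_trace_map H.π (H.ρ.ρ σ) _ (ℓ : ℤ) h1 m

/-- **[JD]** for the Lucas polynomials (helper5's `s31luc_smul`, helper18's `s29q_frob`,
`s29q_hecke_smul`). -/
theorem s31c_lucasJ_main (hRho : Fermat.Agent.S37.s37_RhoStatement) :
    s31c_LucasJStatement s31luc_V := by
  intro N _ ℓ hℓ hℓN A hA M hM σ hσ x hx m
  have h := s31luc_smul σ (heckeOperatorBar N ⟨ℓ, hℓ⟩) (ℓ : ℤ) (s31luc_tors N M)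
    (fun y hy => Fermat.Agent.S29.s29q_smul_torsion N σ hy)
    (fun y hy => Fermat.Agent.S29.s29q_hecke_torsion N ⟨ℓ, hℓ⟩ hy)
    (fun y _ => Fermat.Agent.S29.s29q_hecke_smul N ⟨ℓ, hℓ⟩ σ y)
    (fun y hy => by
      have h1 := Fermat.Agent.S29.s29q_frob hRho N hℓ hℓN A hA hM hσ y hy
      rw [natCast_zsmul]
      exact h1) m x hx
  rw [h]
  congr 1

/-- **[TR]** from [FAITH], [FD], [RHO] and [CYC-k]. -/
theorem s31c_trace_main_of (hFaith : s31_FaithStatement)
    (hFD : Fermat.Agent.S29.s29_FDStatement) (hRho : Fermat.Agent.S37.s37_RhoStatement)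
    (hCyc : s31c_CycStatement) : s31_TraceStatement :=
  s31c_trace_of s31luc_V (s31c_lucasJ_main hRho) s31c_traceFrob_main s31c_cont_main hFaith hFD hRho
    hCyc

/-- **S31** from [FAITH], [FD], [RHO] and [CYC-k]. -/
theorem s31c_goal_main_of (hFaith : s31_FaithStatement)
    (hFD : Fermat.Agent.S29.s29_FDStatement) (hRho : Fermat.Agent.S37.s37_RhoStatement)
    (hCyc : s31c_CycStatement) : s31_Goal :=
  s31_goal_of s31tr_ker (s31c_trace_main_of hFaith hFD hRho hCyc)

end Fermat.Agent.S31
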