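/-
S31, leaf **[S31-CYC]** (helper10).  Prefix `s31cy_`.

Frobenius elements and inertia groups on roots of unity of order prime to the residue
characteristic, without any character:

* `s31cy_frob` : a Frobenius element `σ` at `ℓ ∤ m` raises the `m`-th roots of unity to the
  `ℓ`-th power; `s31cy_frob_pow` : `(σ ^ k) t = t ^ (ℓ ^ k)`;
* `s31cy_inertia` : an inertia group at `q ∤ m` fixes the `m`-th roots of unity;
* `s31cy_level` : a finite level containing the `m`-th roots of unity;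
* `s31cy_modEq`, `s31cy_modEq'` : if `σ₁ ^ k₁ = h` and `σ₂ ^ k₂ = τ h` (resp. `h τ`) on the
  `m`-th roots of unity, `σᵢ` Frobenius at `ℓᵢ ∤ m`, `τ` in an inertia group at `q ∤ m`, then
  `ℓ₁ ^ k₁ ≡ ℓ₂ ^ k₂` modulo `m`.

The local input (`s31cy_residue_inj`): the `m`-th roots of unity are distinct modulo the maximal
ideal of a valuation subring over `ℓ ∤ m`.
-/
import Mathlib
import Fermat.Agent.S30.CycAdic

set_option autoImplicit false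

namespace Fermat.Agent.S31

open Fermat.Agent.S29 Fermat.Agent.S30

/-! ### Roots of unity modulo the maximal ideal -/

section Local

variable {L : Type*} [Field L] (A : ValuationSubring L)

/-- `m ≠ 0` in the residue field of a valuation subring over `ℓ ∤ m`. -/
theorem s31cy_natCast_ne {ℓ m : ℕ} (hℓ : ℓ.Prime) (hm : ¬ ℓ ∣ m) (hA : A.LiesOverPrime ℓ) :
    ((m : ℕ) : IsLocalRing.ResidueField A) ≠ 0 := by
  intro h0
  have hl := s29cy_natCast_residue A hA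
  have hcop : Nat.Coprime m ℓ := ((Nat.Prime.coprime_iff_not_dvd hℓ).2 hm).symm
  obtain ⟨a, b, hab⟩ := Nat.Coprime.isCoprime hcop
  have h1 : ((a * (m : ℤ) + b * (ℓ : ℤ) : ℤ) : IsLocalRing.ResidueField A) = 1 := by
    rw [hab]; simp
  push_cast at h1
  rw [h0, hl] at h1
  simp at h1

/-- An `m`-th root of unity which is `1` modulo the maximal ideal of a valuation subring over
`ℓ ∤ m` is `1`. -/
theorem s31cy_eq_one {ℓ m : ℕ} (hℓ : ℓ.Prime) (hm : ¬ ℓ ∣ m) (hA : A.LiesOverPrime ℓ)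
    (w : A) (hw : w ^ m = 1) (hres : IsLocalRing.residue A w = 1) : w = 1 := by
  by_contra h1
  have h2 : (w - 1) * ∑ i ∈ Finset.range m, w ^ i = 0 := by
    rw [mul_geom_sum, hw, sub_self]
  have h3 : ∑ i ∈ Finset.range m, w ^ i = 0 := by
    rcases mul_eq_zero.1 h2 with h | h
    · exact absurd (sub_eq_zero.1 h) h1
    · exact h
  have h4 := congrArg (IsLocalRing.residue A) h3
  rw [map_sum, map_zero] at h4
  simp only [map_pow, hres, one_pow, Finset.sum_const, Finset.card_range, nsmul_eq_mul,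
    mul_one] at h4
  exact s31cy_natCast_ne A hℓ hm hA h4

/-- The `m`-th roots of unity are distinct modulo the maximal ideal of a valuation subring over
`ℓ ∤ m`. -/
theorem s31cy_residue_inj {ℓ m : ℕ} (hℓ : ℓ.Prime) (hm : ¬ ℓ ∣ m) (hA : A.LiesOverPrime ℓ)
    {u v : L} (hu : u ^ m = 1) (hv : v ^ m = 1) (huA : u ∈ A) (hvA : v ∈ A)
    (h : IsLocalRing.residue A ⟨u, huA⟩ = IsLocalRing.residue A ⟨v, hvA⟩) : u = v := by
  have hpos : 0 < m := Nat.pos_of_ne_zero (fun h0 => hm (h0 ▸ dvd_zero ℓ))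
  have hu' : (⟨u, huA⟩ : A) ^ m = 1 := Subtype.ext (by simpa using hu)
  have hv' : (⟨v, hvA⟩ : A) ^ m = 1 := Subtype.ext (by simpa using hv)
  have hvv : (⟨v, hvA⟩ : A) ^ (m - 1) * ⟨v, hvA⟩ = 1 := by
    rw [← pow_succ, Nat.sub_add_cancel hpos, hv']
  set w : A := ⟨u, huA⟩ * (⟨v, hvA⟩ : A) ^ (m - 1) with hw
  have hw1 : w ^ m = 1 := by
    rw [hw, mul_pow, hu', one_mul, ← pow_mul, mul_comm, pow_mul, hv', one_pow]
  have hw2 : IsLocalRing.residue A w = 1 := by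
    rw [hw, map_mul, h, ← map_mul, mul_comm, hvv, map_one]
  have hw3 : w = 1 := s31cy_eq_one A hℓ hm hA w hw1 hw2
  have h5 : (⟨u, huA⟩ : A) = ⟨v, hvA⟩ := by
    calc (⟨u, huA⟩ : A) = ⟨u, huA⟩ * ((⟨v, hvA⟩ : A) ^ (m - 1) * ⟨v, hvA⟩) := by
          rw [hvv, mul_one]
      _ = w * ⟨v, hvA⟩ := by rw [hw, mul_assoc]
      _ = ⟨v, hvA⟩ := by rw [hw3, one_mul]
  exact congrArg Subtype.val h5

end Local

/-! ### Frobenius elements and inertia groups on roots of unity -/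

section Galois

/-- A Frobenius element at `ℓ ∤ m` raises the `m`-th roots of unity to the `ℓ`-th power. -/
theorem s31cy_frob {ℓ m : ℕ} (hℓ : ℓ.Prime) (hm : ¬ ℓ ∣ m)
    (A : ValuationSubring (AlgebraicClosure ℚ)) (hA : A.LiesOverPrime ℓ)
    (σ : AlgebraicClosure ℚ ≃ₐ[ℚ] AlgebraicClosure ℚ) (hσ : A.IsFrobeniusAt σ ℓ)
    (t : AlgebraicClosure ℚ) (ht : t ^ m = 1) : σ t = t ^ ℓ := by
  obtain ⟨hmem, hF⟩ := hσ
  have hpos : 0 < m := Nat.pos_of_ne_zero (fun h0 => hm (h0 ▸ dvd_zero ℓ))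
  have htA : t ∈ A := s29cy_mem A hpos ht
  have hσt1 : (σ t) ^ m = 1 := by rw [← map_pow, ht, map_one]
  have hσtA : σ t ∈ A := s29cy_mem A hpos hσt1
  have htℓ1 : (t ^ ℓ) ^ m = 1 := by rw [← pow_mul, mul_comm, pow_mul, ht, one_pow]
  have htℓA : t ^ ℓ ∈ A := pow_mem htA ℓ
  have h3 := s30cy_residue_smul A σ hmem htA hσtA
  rw [hF, ← map_pow] at h3
  have h4 : (⟨t, htA⟩ : A) ^ ℓ = ⟨t ^ ℓ, htℓA⟩ := Subtype.ext (by simp)
  rw [h4] at h3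
  exact (s31cy_residue_inj A hℓ hm hA htℓ1 hσt1 htℓA hσtA h3).symm

/-- The powers of a Frobenius element at `ℓ ∤ m` on the `m`-th roots of unity. -/
theorem s31cy_frob_pow {ℓ m : ℕ} (hℓ : ℓ.Prime) (hm : ¬ ℓ ∣ m)
    (A : ValuationSubring (AlgebraicClosure ℚ)) (hA : A.LiesOverPrime ℓ)
    (σ : AlgebraicClosure ℚ ≃ₐ[ℚ] AlgebraicClosure ℚ) (hσ : A.IsFrobeniusAt σ ℓ) (k : ℕ)
    (t : AlgebraicClosure ℚ) (ht : t ^ m = 1) : (σ ^ k) t = t ^ (ℓ ^ k) := by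
  induction k with
  | zero => simp
  | succ k ih =>
    rw [pow_succ, AlgEquiv.mul_apply, s31cy_frob hℓ hm A hA σ hσ t ht, map_pow, ih, ← pow_mul,
      ← pow_succ]

/-- An inertia group at `q ∤ m` fixes the `m`-th roots of unity. -/
theorem s31cy_inertia {q m : ℕ} (hq : q.Prime) (hm : ¬ q ∣ m)
    (A : ValuationSubring (AlgebraicClosure ℚ)) (hA : A.LiesOverPrime q)
    (τ : AlgebraicClosure ℚ ≃ₐ[ℚ] AlgebraicClosure ℚ) (hτ : τ ∈ A.inertiaSubgroupIn ℚ)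
    (t : AlgebraicClosure ℚ) (ht : t ^ m = 1) : τ t = t := by
  obtain ⟨g, hg, rfl⟩ := hτ
  have hg1 : ∀ x : IsLocalRing.ResidueField A, g • x = x := by
    intro x
    have h1 : MulSemiringAction.toRingAut (A.decompositionSubgroup ℚ)
        (IsLocalRing.ResidueField A) g = 1 := hg
    have h2 := congrArg (fun e : RingAut (IsLocalRing.ResidueField A) => e x) h1
    simpa using h2
  have hpos : 0 < m := Nat.pos_of_ne_zero (fun h0 => hm (h0 ▸ dvd_zero q))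
  have htA : t ∈ A := s29cy_mem A hpos ht
  have hσt1 : (g.1 t) ^ m = 1 := by rw [← map_pow, ht, map_one]
  have hσtA : g.1 t ∈ A := s29cy_mem A hpos hσt1
  have h3 := s30cy_residue_smul A g.1 g.2 htA hσtA
  have h4 : (⟨g.1, g.2⟩ : A.decompositionSubgroup ℚ) = g := rfl
  rw [h4, hg1] at h3
  exact (s31cy_residue_inj A hq hm hA ht hσt1 htA hσtA h3).symm

/-- A finite level containing the `m`-th roots of unity. -/
theorem s31cy_level {m : ℕ} (hm : 0 < m) :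
    ∃ L : IntermediateField ℚ (AlgebraicClosure ℚ), FiniteDimensional ℚ L ∧
      ∀ t : AlgebraicClosure ℚ, t ^ m = 1 → t ∈ L := by
  have : NeZero m := ⟨hm.ne'⟩
  obtain ⟨ζ, hζ⟩ := HasEnoughRootsOfUnity.exists_primitiveRoot (AlgebraicClosure ℚ) m
  refine ⟨IntermediateField.adjoin ℚ {ζ}, ?_, fun t ht => ?_⟩
  · exact IntermediateField.adjoin.finiteDimensional
      ((hζ.isIntegral hm).tower_top (R := ℤ) (A := ℚ)).isAlgebraic.isIntegral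
  · obtain ⟨i, _, rfl⟩ := hζ.eq_pow_of_pow_eq_one ht
    exact pow_mem (IntermediateField.mem_adjoin_simple_self ℚ ζ) i

/-- Exponents which agree on the `m`-th roots of unity are congruent modulo `m`. -/
theorem s31cy_modEq_of_pow_eq {m a b : ℕ} (hm : 0 < m)
    (h : ∀ t : AlgebraicClosure ℚ, t ^ m = 1 → t ^ a = t ^ b) : a ≡ b [MOD m] := by
  have : NeZero m := ⟨hm.ne'⟩
  obtain ⟨ζ, hζ⟩ := HasEnoughRootsOfUnity.exists_primitiveRoot (AlgebraicClosure ℚ) m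
  have h1 : ζ ^ a = ζ ^ b := h ζ hζ.pow_eq_one
  have h2 : ∀ i : ℕ, ζ ^ (i % m) = ζ ^ i := by
    intro i
    conv_rhs => rw [← Nat.div_add_mod i m, pow_add, pow_mul, hζ.pow_eq_one, one_pow, one_mul]
  exact hζ.pow_inj (Nat.mod_lt _ hm) (Nat.mod_lt _ hm) (by rw [h2, h2, h1])

/-- **[S31-CYC]** the congruence `ℓ₁ ^ k₁ ≡ ℓ₂ ^ k₂` modulo `m`: `σ₁ ^ k₁ = h` and
`σ₂ ^ k₂ = τ h` on the `m`-th roots of unity, `σᵢ` a Frobenius element at `ℓᵢ ∤ m`, `τ` in an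
inertia group at `q ∤ m`. -/
theorem s31cy_modEq {m ℓ₁ ℓ₂ q : ℕ} (hℓ₁ : ℓ₁.Prime) (hm₁ : ¬ ℓ₁ ∣ m) (hℓ₂ : ℓ₂.Prime)
    (hm₂ : ¬ ℓ₂ ∣ m) (hq : q.Prime) (hmq : ¬ q ∣ m)
    (A₁ : ValuationSubring (AlgebraicClosure ℚ)) (hA₁ : A₁.LiesOverPrime ℓ₁)
    (σ₁ : AlgebraicClosure ℚ ≃ₐ[ℚ] AlgebraicClosure ℚ) (hσ₁ : A₁.IsFrobeniusAt σ₁ ℓ₁)
    (A₂ : ValuationSubring (AlgebraicClosure ℚ)) (hA₂ : A₂.LiesOverPrime ℓ₂)
    (σ₂ : AlgebraicClosure ℚ ≃ₐ[ℚ] AlgebraicClosure ℚ) (hσ₂ : A₂.IsFrobeniusAt σ₂ ℓ₂)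
    (B : ValuationSubring (AlgebraicClosure ℚ)) (hB : B.LiesOverPrime q)
    (τ : AlgebraicClosure ℚ ≃ₐ[ℚ] AlgebraicClosure ℚ) (hτ : τ ∈ B.inertiaSubgroupIn ℚ)
    (h : AlgebraicClosure ℚ ≃ₐ[ℚ] AlgebraicClosure ℚ) (k₁ k₂ : ℕ)
    (h₁ : ∀ t : AlgebraicClosure ℚ, t ^ m = 1 → (σ₁ ^ k₁) t = h t)
    (h₂ : ∀ t : AlgebraicClosure ℚ, t ^ m = 1 → (σ₂ ^ k₂) t = (τ * h) t) :
    ℓ₁ ^ k₁ ≡ ℓ₂ ^ k₂ [MOD m] := by
  have hpos : 0 < m := Nat.pos_of_ne_zero (fun h0 => hmq (h0 ▸ dvd_zero q))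
  refine s31cy_modEq_of_pow_eq hpos (fun t ht => ?_)
  have hht : (h t) ^ m = 1 := by rw [← map_pow, ht, map_one]
  rw [← s31cy_frob_pow hℓ₁ hm₁ A₁ hA₁ σ₁ hσ₁ k₁ t ht,
    ← s31cy_frob_pow hℓ₂ hm₂ A₂ hA₂ σ₂ hσ₂ k₂ t ht, h₁ t ht, h₂ t ht, AlgEquiv.mul_apply,
    s31cy_inertia hq hmq B hB τ hτ (h t) hht]

/-- **[S31-CYC]**, the variant with `h τ` instead of `τ h`. -/
theorem s31cy_modEq' {m ℓ₁ ℓ₂ q : ℕ} (hℓ₁ : ℓ₁.Prime) (hm₁ : ¬ ℓ₁ ∣ m) (hℓ₂ : ℓ₂.Prime)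
    (hm₂ : ¬ ℓ₂ ∣ m) (hq : q.Prime) (hmq : ¬ q ∣ m)
    (A₁ : ValuationSubring (AlgebraicClosure ℚ)) (hA₁ : A₁.LiesOverPrime ℓ₁)
    (σ₁ : AlgebraicClosure ℚ ≃ₐ[ℚ] AlgebraicClosure ℚ) (hσ₁ : A₁.IsFrobeniusAt σ₁ ℓ₁)
    (A₂ : ValuationSubring (AlgebraicClosure ℚ)) (hA₂ : A₂.LiesOverPrime ℓ₂)
    (σ₂ : AlgebraicClosure ℚ ≃ₐ[ℚ] AlgebraicClosure ℚ) (hσ₂ : A₂.IsFrobeniusAt σ₂ ℓ₂)
    (B : ValuationSubring (AlgebraicClosure ℚ)) (hB : B.LiesOverPrime q)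
    (τ : AlgebraicClosure ℚ ≃ₐ[ℚ] AlgebraicClosure ℚ) (hτ : τ ∈ B.inertiaSubgroupIn ℚ)
    (h : AlgebraicClosure ℚ ≃ₐ[ℚ] AlgebraicClosure ℚ) (k₁ k₂ : ℕ)
    (h₁ : ∀ t : AlgebraicClosure ℚ, t ^ m = 1 → (σ₁ ^ k₁) t = h t)
    (h₂ : ∀ t : AlgebraicClosure ℚ, t ^ m = 1 → (σ₂ ^ k₂) t = (h * τ) t) :
    ℓ₁ ^ k₁ ≡ ℓ₂ ^ k₂ [MOD m] := by
  have hpos : 0 < m := Nat.pos_of_ne_zero (fun h0 => hmq (h0 ▸ dvd_zero q))
  refine s31cy_modEq_of_pow_eq hpos (fun t ht => ?_)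
  rw [← s31cy_frob_pow hℓ₁ hm₁ A₁ hA₁ σ₁ hσ₁ k₁ t ht,
    ← s31cy_frob_pow hℓ₂ hm₂ A₂ hA₂ σ₂ hσ₂ k₂ t ht, h₁ t ht, h₂ t ht, AlgEquiv.mul_apply,
    s31cy_inertia hq hmq B hB τ hτ t ht]

/-- The same congruence in a commutative ring in which `m` lies in an ideal `I`. -/
theorem s31cy_cast_sub_mem {R : Type*} [CommRing R] {I : Ideal R} {m a b : ℕ}
    (hm : (m : R) ∈ I) (h : a ≡ b [MOD m]) : (a : R) - (b : R) ∈ I := by
  have h1 : ((m : ℕ) : ℤ) ∣ (a : ℤ) - (b : ℤ) := (Nat.modEq_iff_dvd.1 h.symm)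
  obtain ⟨k, hk⟩ := h1
  have h2 : (a : R) - (b : R) = (m : R) * (k : R) := by
    have h3 := congrArg (fun z : ℤ => (z : R)) hk
    simpa using h3
  rw [h2]
  exact Ideal.mul_mem_right _ _ hm

end Galois

end Fermat.Agent.S31
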